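import Fermat.Agent.LocalDuality.Duality.Main

/-!
# Dimensions in the local cohomology sequence

With local duality the image of `δ₁` is measured by the dual sequence, so that
`h¹ - h⁰ - h⁰(dual)` is additive without mentioning `H²` (`finrank_H₁_add`).
-/

set_option autoImplicit false

noncomputable section

open CategoryTheory groupCohomology Module

namespace FLTAgent.GWEuler.LocalEuler

open FLTAgent.LocalDuality

variable {k G : Type} [Field k] [Group G]
  {r : G →* (AlgebraicClosure ℚ ≃ₐ[ℚ] AlgebraicClosure ℚ)} {A B C : Rep k G}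
  (S : SmoothSES r A B C)

/-- The inclusion on invariants. -/
def invι : A.ρ.invariants →ₗ[k] B.ρ.invariants :=
  (S.ι.comp A.ρ.invariants.subtype).codRestrict _ fun a g => by
    show B.ρ g (S.ι a.1) = S.ι a.1
    rw [← S.ι_equiv, a.2 g]

/-- The projection on invariants. -/
def invπ : B.ρ.invariants →ₗ[k] C.ρ.invariants :=
  (S.π.comp B.ρ.invariants.subtype).codRestrict _ fun b g => by
    show C.ρ g (S.π b.1) = S.π b.1
    rw [← S.π_equiv, b.2 g]

theorem invι_injective : Function.Injective (invι S) := fun _ _ h =>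
  Subtype.ext (S.ι_injective (congrArg Subtype.val h))

theorem ker_invπ : LinearMap.ker (invπ S) = LinearMap.range (invι S) := by
  ext b
  constructor
  · intro hb
    obtain ⟨a, ha⟩ := (S.exact b.1).1 (congrArg Subtype.val hb)
    exact ⟨⟨a, fun g => S.ι_injective (by rw [S.ι_equiv, ha, b.2 g])⟩, Subtype.ext ha⟩
  · rintro ⟨a, rfl⟩
    exact Subtype.ext (S.π_ι a.1)

theorem ker_delta₀ : LinearMap.ker S.delta₀ = LinearMap.range (invπ S) := by
  ext c
  constructor
  · intro hc
    obtain ⟨a, ha⟩ := cls₁_eq_zero_iff.1 (show cls₁ r A (S.delta₀Z c.2 (S.π_sec c.1)) = 0 from hc)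
    refine ⟨⟨S.sec c.1 - S.ι a, fun g => ?_⟩, Subtype.ext ?_⟩
    · have h1 := congrArg S.ι (congrFun ha g)
      change S.ι ((d₀₁ A).hom a g) = S.ι (S.pre _) at h1
      rw [S.delta₀_pre c.2 (S.π_sec c.1), d₀₁_hom_apply, d₀₁_hom_apply, map_sub, S.ι_equiv] at h1
      rw [map_sub]
      linear_combination (norm := abel) -h1
    · show S.π (S.sec c.1 - S.ι a) = c.1
      rw [map_sub, S.π_sec, S.π_ι, sub_zero]
  · rintro ⟨b, rfl⟩
    have hb : S.π b.1 = (invπ S b).1 := rfl
    show cls₁ r A (S.delta₀Z (invπ S b).2 (S.π_sec _)) = 0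
    rw [S.delta₀Z_congr (invπ S b).2 (S.π_sec _) hb, cls₁_eq_zero_iff]
    refine ⟨0, funext fun g => ?_⟩
    show (d₀₁ A).hom 0 g = S.pre ((d₀₁ B).hom b.1 g)
    rw [d₀₁_hom_apply, d₀₁_hom_apply, b.2 g, sub_self, map_zero, sub_self]
    simpa using (S.pre_ι 0).symm

theorem ker_mapH₁_ι :
    LinearMap.ker (mapH₁ r S.ι S.ι_equiv) = LinearMap.range S.delta₀ := by
  ext x
  constructor
  · intro hx
    obtain ⟨x, rfl⟩ := cls₁_surjective x
    rw [LinearMap.mem_ker, mapH₁_cls, cls₁_eq_zero_iff] at hx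
    obtain ⟨b, hb⟩ := hx
    have hc : S.π b ∈ C.ρ.invariants := fun g => by
      have h1 := congrArg S.π (congrFun hb g)
      rw [d₀₁_hom_apply, map_sub, S.π_equiv] at h1
      exact sub_eq_zero.mp (h1.trans (S.π_ι _))
    refine ⟨⟨S.π b, hc⟩, ?_⟩
    show cls₁ r A (S.delta₀Z hc (S.π_sec _)) = _
    rw [S.delta₀Z_congr hc (S.π_sec _) (rfl : S.π b = S.π b)]
    refine congrArg _ (Subtype.ext (Subtype.ext (funext fun g => ?_)))
    show S.pre ((d₀₁ B).hom b g) = _
    rw [congrFun hb g]
    exact S.pre_ι _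
  · rintro ⟨c, rfl⟩
    exact S.mapH₁_delta₀ c

theorem mapH₁_π_ι (x : continuousH1 r A) :
    mapH₁ r S.π S.π_equiv (mapH₁ r S.ι S.ι_equiv x) = 0 := by
  obtain ⟨x, rfl⟩ := cls₁_surjective x
  rw [mapH₁_cls, mapH₁_cls, cls₁_eq_zero_iff]
  exact ⟨0, funext fun g => by
    show (d₀₁ C).hom 0 g = S.π (S.ι ((x.1 : G → A) g))
    rw [S.π_ι, map_zero]; rfl⟩

theorem ker_mapH₁_π :
    LinearMap.ker (mapH₁ r S.π S.π_equiv) = LinearMap.range (mapH₁ r S.ι S.ι_equiv) :=
  le_antisymm (fun _ hx => S.exact_H₁B hx) (by rintro _ ⟨x, rfl⟩; exact mapH₁_π_ι S x)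

theorem delta₁_mapH₁_π (x : continuousH1 r B) : S.delta₁ (mapH₁ r S.π S.π_equiv x) = 0 := by
  obtain ⟨x, rfl⟩ := cls₁_surjective x
  rw [mapH₁_cls, S.delta₁_cls]
  refine (S.delta₁Z_congr (yt' := (x.1 : G → B)) (zc (mapZ₁ r S.π S.π_equiv x))
    (zc (mapZ₁ r S.π S.π_equiv x)) _ (fun g => rfl) _ (zl x) (c := 0)
    (by rw [map_zero, sub_self])).trans ?_
  rw [cls₂_eq_zero_iff]
  refine ⟨0, isLevelConstant₁_const r (0 : A), funext fun p => S.ι_injective ?_⟩
  show _ = S.ι (S.pre ((d₁₂ B).hom (x.1 : G → B) p))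
  rw [S.delta₁_pre (zc (mapZ₁ r S.π S.π_equiv x)) (fun g => rfl), map_zero, Pi.zero_apply,
    map_zero]
  exact (congrFun (show (d₁₂ B).hom (x.1 : G → B) = 0 from (zc x)) p).symm

theorem ker_delta₁ : LinearMap.ker S.delta₁ = LinearMap.range (mapH₁ r S.π S.π_equiv) :=
  le_antisymm (fun _ hx => S.exact_H₁C hx) (by rintro _ ⟨x, rfl⟩; exact delta₁_mapH₁_π S x)

/-- Right and left kernels of a bilinear form have equal codimension. -/
theorem finrank_range_flip {V W : Type} [AddCommGroup V] [Module k V] [AddCommGroup W]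
    [Module k W] [FiniteDimensional k V] [FiniteDimensional k W] (b : V →ₗ[k] W →ₗ[k] k) :
    finrank k (LinearMap.range b.flip) = finrank k (LinearMap.range b) := by
  have e : b.flip = b.dualMap.comp (Dual.eval k W) := LinearMap.ext fun w =>
    LinearMap.ext fun v => rfl
  rw [e, LinearMap.range_comp, (LinearMap.range_eq_top.mpr fun x => (evalEquiv k W).surjective x :
      LinearMap.range (Dual.eval k W) = ⊤),
    Submodule.map_top, LinearMap.finrank_range_dualMap_eq_finrank_range]

variable {ψ : G →* kˣ} (hψ : SmoothChar r ψ)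

/-- The defect `h¹ - h⁰ - h⁰(dual)` is additive. -/
theorem finrank_H₁_add (h2 : finrank k (continuousH2 r (ofChar ψ)) = 1)
    [FiniteDimensional k A] [FiniteDimensional k B] [FiniteDimensional k C]
    (hA : Good hψ A S.smooth_left) (hB : Good hψ B S.smooth) (hC : Good hψ C S.smooth_right)
    (hC' : Good hψ (C.dualTwist ψ) (isSmooth_dualTwist hψ S.smooth_right)) :
    (finrank k (continuousH1 r B) : ℤ) - finrank k B.ρ.invariants
        - finrank k (B.dualTwist ψ).ρ.invariants
      = ((finrank k (continuousH1 r A) : ℤ) - finrank k A.ρ.invariants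
          - finrank k (A.dualTwist ψ).ρ.invariants)
        + ((finrank k (continuousH1 r C) : ℤ) - finrank k C.ρ.invariants
          - finrank k (C.dualTwist ψ).ρ.invariants) := by
  have := hA.finite
  have := hB.finite
  have := hC.finite
  have := hC'.finite
  have : FiniteDimensional k (continuousH2 r (ofChar ψ)) :=
    Module.finite_of_finrank_pos (by rw [h2]; exact one_pos)
  have : FiniteDimensional k (A.dualTwist ψ) := inferInstanceAs (FiniteDimensional k (Dual k A))
  have : FiniteDimensional k (B.dualTwist ψ) := inferInstanceAs (FiniteDimensional k (Dual k B))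
  have : FiniteDimensional k (C.dualTwist ψ) := inferInstanceAs (FiniteDimensional k (Dual k C))
  let inv : continuousH2 r (ofChar ψ) ≃ₗ[k] k :=
    LinearEquiv.ofFinrankEq _ _ (by rw [h2, Module.finrank_self])
  set S' := S.dual hψ
  let b : continuousH1 r C →ₗ[k] (A.dualTwist ψ).ρ.invariants →ₗ[k] k :=
    ((pair hψ C S.smooth_right).compl₂ S'.delta₀).compr₂ inv.toLinearMap
  have hkerb : LinearMap.ker b = LinearMap.ker S.delta₁ := by
    ext x
    constructor
    · intro hx
      refine hA.detect _ fun f => inv.injective ?_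
      rw [alpha_delta₁ hψ S x f]
      exact (LinearMap.congr_fun hx f).trans (map_zero inv).symm
    · intro hx
      refine LinearMap.ext fun f => ?_
      show inv (pair hψ C S.smooth_right x (S'.delta₀ f)) = 0
      rw [← alpha_delta₁ hψ S x f, LinearMap.mem_ker.mp hx, map_zero, map_zero]
  have hkerf : LinearMap.ker b.flip = LinearMap.ker S'.delta₀ := by
    ext f
    constructor
    · intro hf
      refine eq_zero_of_pair_right hψ S.smooth_right hC'.left fun x => inv.injective ?_
      exact (LinearMap.congr_fun hf x).trans (map_zero inv).symm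
    · intro hf
      refine LinearMap.ext fun x => ?_
      show inv (pair hψ C S.smooth_right x (S'.delta₀ f)) = 0
      rw [LinearMap.mem_ker.mp hf, map_zero, map_zero]
  have hflip := finrank_range_flip b
  have e1 := (invπ S).finrank_range_add_finrank_ker
  rw [ker_invπ, LinearMap.finrank_range_of_inj (invι_injective S)] at e1
  have e2 := S.delta₀.finrank_range_add_finrank_ker
  rw [ker_delta₀] at e2
  have e3 := (mapH₁ r S.ι S.ι_equiv).finrank_range_add_finrank_ker
  rw [ker_mapH₁_ι] at e3
  have e4 := (mapH₁ r S.π S.π_equiv).finrank_range_add_finrank_ker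
  rw [ker_mapH₁_π] at e4
  have e5 := b.finrank_range_add_finrank_ker
  rw [hkerb, ker_delta₁] at e5
  have e6 := b.flip.finrank_range_add_finrank_ker
  rw [hkerf, ker_delta₀, hflip] at e6
  have e7 := (invπ S').finrank_range_add_finrank_ker
  rw [ker_invπ, LinearMap.finrank_range_of_inj (invι_injective S')] at e7
  omega

end FLTAgent.GWEuler.LocalEuler
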