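import Fermat.Agent.GWEuler.LocalEuler.Units
import Fermat.Agent.LocalDuality.Duality.Nonvanishing
import Fermat.Agent.LocalDuality.Classes

/-!
# Local `H¹` of a relatively projective module

`finrank_H1_layer`: for a relatively projective module `P` of `Gal(L/ℚ_q)`, `H¹(ℚ_q, P)` has the
dimension of the equivariant maps from the dual twist of `P` to `Lˣ/p`, by Kummer theory.
-/

set_option autoImplicit false

noncomputable section

open CategoryTheory Module groupCohomology ExtCitation

namespace FLTAgent.GWEuler.LocalEuler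

open FLTAgent.LocalDuality

variable {q : ℕ} [Fact q.Prime] {p : ℕ} [Fact p.Prime] {G : Type} [Group G]

variable (j : G →* LocalGal q) (L : IntermediateField ℚ_[q] (PadicAlgCl q)) [IsGalois ℚ_[q] L]

/-- Restriction of the local group to a Galois extension. -/
def layerHom : G →* (L ≃ₐ[ℚ_[q]] L) := (AlgEquiv.restrictNormalHom L).comp j

theorem coe_layerHom (g : G) (x : L) : ((layerHom j L g x : L) : PadicAlgCl q) =
    j g (x : PadicAlgCl q) :=
  AlgEquiv.restrictNormal_commutes (j g) L x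

theorem layerHom_surjective (h : IsFieldGroup j ⊥) : Function.Surjective (layerHom j L) := by
  intro σ
  obtain ⟨τ, hτ⟩ := AlgEquiv.restrictNormalHom_surjective (F := ℚ_[q]) (K₁ := L) (PadicAlgCl q) σ
  obtain ⟨g, hg⟩ := h.exists_eq (τ := τ) (by rw [IntermediateField.fixingSubgroup_bot]; trivial)
  exact ⟨g, by rw [layerHom, MonoidHom.comp_apply, hg, hτ]⟩

/-- The subgroup fixing the layer. -/
def layerSub : Subgroup G := L.fixingSubgroup.comap j

theorem mem_layerSub {g : G} : g ∈ layerSub j L ↔ layerHom j L g = 1 := by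
  show j g ∈ L.fixingSubgroup ↔ _
  rw [IntermediateField.mem_fixingSubgroup_iff]
  constructor
  · intro h
    refine AlgEquiv.ext fun x => Subtype.ext ?_
    rw [coe_layerHom]
    exact h _ x.2
  · intro h x hx
    have := congrArg (fun σ : L ≃ₐ[ℚ_[q]] L => ((σ ⟨x, hx⟩ : L) : PadicAlgCl q)) h
    rwa [coe_layerHom] at this

instance : (layerSub j L).Normal := ⟨fun n hn g => by
  rw [mem_layerSub] at hn ⊢
  rw [map_mul, map_mul, hn, mul_one, map_inv, mul_inv_cancel]⟩

/-- A layer containing the roots of unity, with its cyclotomic character. -/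
structure MuLayer (ζ : (PadicAlgCl q)ˣ) (ψ : G →* (ZMod p)ˣ)
    (ψ₀ : (L ≃ₐ[ℚ_[q]] L) →* (ZMod p)ˣ) : Prop extends CycloField p j ⊥ ζ ψ where
  finiteL : FiniteDimensional ℚ_[q] L
  mem : (ζ : PadicAlgCl q) ∈ L
  descend : ∀ g, ψ₀ (layerHom j L g) = ψ g

variable {j L} {ζ : (PadicAlgCl q)ˣ} {ψ : G →* (ZMod p)ˣ} {ψ₀ : (L ≃ₐ[ℚ_[q]] L) →* (ZMod p)ˣ}
  (D : MuLayer j L ζ ψ ψ₀)

theorem MuLayer.kummerField (D : MuLayer j L ζ ψ ψ₀) :
    KummerField p (j.comp (layerSub j L).subtype) L ζ :=
  haveI := D.finiteL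
  { toIsFieldGroup := D.toIsFieldGroup.sub (E' := L) bot_le
    prim := D.prim
    mem := D.mem }

theorem MuLayer.exists_level (D : MuLayer j L ζ ψ ψ₀) :
    ∃ F : IntermediateField ℚ (AlgebraicClosure ℚ), FiniteDimensional ℚ F ∧
      levelSubgroup (locR j) F ≤ layerSub j L := by
  have := D.finiteL
  obtain ⟨F, hF, hle⟩ := exists_level_le q L
  exact ⟨F, hF, fun s hs => hle hs⟩

/-- The unit of `PadicAlgCl q` underlying a unit of the layer. -/
abbrev upU (b : LUnits L) : (PadicAlgCl q)ˣ := Units.map (L.val : L →* PadicAlgCl q) (ofLU b)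

/-- The Kummer character of a unit of the layer. -/
def kchar : LUnits L →+ (layerSub j L → ZMod p) where
  toFun b n := D.kummerField.kv (Additive.ofMul (ofLU b)) n
  map_zero' := funext fun n => congrFun (congrArg (fun c => (c.1 :
    layerSub j L → trivRep (layerSub j L) p)) D.kummerField.kappa.map_zero) n
  map_add' a b := funext fun n => congrFun (congrArg (fun c => (c.1 :
    layerSub j L → trivRep (layerSub j L) p))
      (D.kummerField.kappa.map_add (Additive.ofMul (ofLU a)) (Additive.ofMul (ofLU b)))) n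

theorem kchar_spec (b : LUnits L) (n : layerSub j L) {β : (PadicAlgCl q)ˣ} (hβ : β ^ p = upU b) :
    j n (β : PadicAlgCl q) = (ζ : PadicAlgCl q) ^ (kchar D b n).val * β := by
  have h := D.kummerField.zetaPow_kv (Additive.ofMul (ofLU b)) n
    (β := toAU (j.comp (layerSub j L).subtype) β) (congrArg (toAU _) hβ)
  rw [← ZMod.natCast_zmod_val (D.kummerField.kv (Additive.ofMul (ofLU b)) n), zetaPow_natCast,
    eq_sub_iff_add_eq] at h
  have h2 := congrArg (fun u => ((ofAU _ u : (PadicAlgCl q)ˣ) : PadicAlgCl q)) h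
  refine h2.symm.trans ?_
  rw [← Units.val_pow_eq_pow_val]
  rfl

theorem pow_zeta_inj {a b : ZMod p} (h : (ζ : PadicAlgCl q) ^ a.val = (ζ : PadicAlgCl q) ^ b.val)
    (hζ : IsPrimitiveRoot ζ p) : a = b := by
  have : NeZero p := ⟨(Fact.out : p.Prime).ne_zero⟩
  exact ZMod.val_injective p ((IsPrimitiveRoot.coe_units_iff.mpr hζ).pow_inj (ZMod.val_lt a)
    (ZMod.val_lt b) h)

theorem kchar_conj (b : LUnits L) (g : G) (n : layerSub j L) :
    kchar D (layerHom j L g • b) ⟨g * n * g⁻¹, Subgroup.Normal.conj_mem inferInstance _ n.2 g⟩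
      = (ψ g : ZMod p) * kchar D b n := by
  have : NeZero p := ⟨(Fact.out : p.Prime).ne_zero⟩
  obtain ⟨β, hβ⟩ := KummerField.exists_root (j := j) p (toAU j (upU b))
  have hβ' : (ofAU j β) ^ p = upU b := congrArg (ofAU j) hβ
  have hgβ : Units.map (j g : PadicAlgCl q →* PadicAlgCl q) (ofAU j β) ^ p
      = upU (layerHom j L g • b) := by
    rw [← map_pow, hβ']
    refine Units.ext ?_
    exact (coe_layerHom j L g _).symm
  have h1 := kchar_spec D (layerHom j L g • b) ⟨g * n * g⁻¹,
    Subgroup.Normal.conj_mem inferInstance _ n.2 g⟩ hgβ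
  have h2 := kchar_spec D b n hβ'
  have h3 : j (g * n * g⁻¹) (j g (ofAU j β : PadicAlgCl q)) =
      j g (j n (ofAU j β : PadicAlgCl q)) := by
    rw [← AlgEquiv.mul_apply, ← map_mul, inv_mul_cancel_right, map_mul, AlgEquiv.mul_apply]
  have h4 : (j g) ((ζ : PadicAlgCl q) ^ (kchar D b n).val * (ofAU j β : PadicAlgCl q))
      = ((ζ : PadicAlgCl q) ^ ((ψ g : ZMod p) * kchar D b n).val)
        * j g (ofAU j β : PadicAlgCl q) := by
    rw [map_mul, map_pow, D.apply_zeta, ← pow_mul,
      pow_eq_pow_mod (_ * _) (IsPrimitiveRoot.coe_units_iff.mpr D.prim).pow_eq_one, ← ZMod.val_mul]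
  refine pow_zeta_inj (ζ := ζ) (mul_right_cancel₀ (b := j g (ofAU j β : PadicAlgCl q))
    (Units.map (j g : PadicAlgCl q →* PadicAlgCl q) (ofAU j β)).ne_zero ?_) D.prim
  exact h1.symm.trans (h3.trans ((congrArg (j g) h2).trans h4))

theorem kchar_pMultiples {b : LUnits L} (hb : b ∈ pMultiples (LUnits L) p) : kchar D b = 0 := by
  obtain ⟨c, rfl⟩ := hb
  show kchar D (p • c) = 0
  rw [map_nsmul]
  exact funext fun n => show p • (kchar D c n) = 0 by rw [nsmul_eq_mul, ZMod.natCast_self, zero_mul]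

/-- The Kummer characters on `Lˣ/p`. -/
def kbar : ModP (LUnits L) p →ₗ[ZMod p] (layerSub j L → ZMod p) :=
  AddMonoidHom.toZModLinearMap p
    (QuotientAddGroup.lift _ (kchar D) fun _ hb => kchar_pMultiples D hb)

theorem kbar_injective : Function.Injective (kbar D) := by
  rw [injective_iff_map_eq_zero]
  intro x hx
  obtain ⟨b, rfl⟩ := QuotientAddGroup.mk_surjective x
  obtain ⟨c, hc⟩ := D.kummerField.exists_nsmul_of_kv_eq_zero (b := Additive.ofMul (ofLU b))
    fun n => congrFun hx n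
  exact (QuotientAddGroup.eq_zero_iff b).mpr ⟨toLU c.toMul,
    congrArg toLU (congrArg Additive.toMul hc)⟩

theorem kbar_conj (x : ModP (LUnits L) p) (g : G) (n : layerSub j L) :
    kbar D ((redMod p (L ≃ₐ[ℚ_[q]] L) (LUnits L)).ρ (layerHom j L g) x)
      ⟨g * n * g⁻¹, Subgroup.Normal.conj_mem inferInstance _ n.2 g⟩
      = (ψ g : ZMod p) * kbar D x n := by
  obtain ⟨b, rfl⟩ := QuotientAddGroup.mk_surjective x
  exact kchar_conj D b g n

theorem kbar_level (x : ModP (LUnits L) p) :
    IsLevelConstant₁ (locR (j.comp (layerSub j L).subtype)) (kbar D x) := by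
  obtain ⟨b, rfl⟩ := QuotientAddGroup.mk_surjective x
  exact D.kummerField.kv_level _

theorem kbar_mul (x : ModP (LUnits L) p) (n m : layerSub j L) :
    kbar D x (n * m) = kbar D x n + kbar D x m := by
  obtain ⟨b, rfl⟩ := QuotientAddGroup.mk_surjective x
  exact D.kummerField.kv_mul _ n m

theorem exists_kbar_eq (F : layerSub j L → ZMod p) (hmul : ∀ n m, F (n * m) = F n + F m)
    (hlev : IsLevelConstant₁ (locR (j.comp (layerSub j L).subtype)) F) :
    ∃ x, kbar D x = F := by
  let c := mkZ₁ (r := locR (j.comp (layerSub j L).subtype)) (A := trivRep (layerSub j L) p) F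
    ((mem_cocycles₁_iff (A := trivRep (layerSub j L) p) _).2 fun n m =>
      show F (n * m) = F m + F n by rw [hmul, add_comm]) hlev
  obtain ⟨b, hb⟩ := D.kummerField.kappa_surjective c
  refine ⟨QuotientAddGroup.mk (toLU b.toMul), funext fun n => ?_⟩
  exact congrFun (congrArg (fun c => (c.1 : layerSub j L → trivRep (layerSub j L) p)) hb) n

section H1

variable (P : Rep (ZMod p) (L ≃ₐ[ℚ_[q]] L)) [FiniteDimensional (ZMod p) P]
  [FiniteDimensional ℚ_[q] L]

local notation "resP" => Rep.res (layerHom j L) P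

omit [FiniteDimensional (ZMod p) P] [FiniteDimensional ℚ_[q] L] in
theorem resP_apply (g : G) (v : P) : (resP).ρ g v = P.ρ (layerHom j L g) v := rfl

omit [FiniteDimensional (ZMod p) P] [FiniteDimensional ℚ_[q] L] in
theorem resP_layerSub (n : layerSub j L) : (resP).ρ (n : G) = 1 := by
  show P.ρ (layerHom j L (n : G)) = 1
  rw [(mem_layerSub j L).mp n.2, map_one]

omit [FiniteDimensional (ZMod p) P] [FiniteDimensional ℚ_[q] L] in
theorem cocycle_mul_layerSub {x : G → P} (hx : x ∈ cocycles₁ (resP)) (n m : layerSub j L) :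
    x ((n : G) * m) = x n + x m := by
  have h1 : x ((n : G) * m) = (resP).ρ (n : G) (x m) + x n := (mem_cocycles₁_iff _).mp hx n m
  rw [resP_layerSub] at h1
  rw [h1, add_comm]
  rfl

/-- Restriction of cocycles to the layer. -/
def resZ : levelCocycles₁ (locR j) (resP) →ₗ[ZMod p] (layerSub j L → P) where
  toFun c n := (c.1 : G → P) n
  map_add' _ _ := rfl
  map_smul' _ _ := rfl

omit [FiniteDimensional (ZMod p) P] [FiniteDimensional ℚ_[q] L] in
theorem resZ_eq_zero (c : levelCocycles₁ (locR j) (resP))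
    (hc : cls₁ (locR j) (resP) c = 0) : resZ P c = 0 := by
  obtain ⟨a, ha⟩ := cls₁_eq_zero_iff.1 hc
  funext n
  show (c.1 : G → P) n = 0
  rw [← congrFun ha n, d₀₁_hom_apply, resP_layerSub]
  exact sub_self a

/-- The homomorphism on the layer attached to a class. -/
def resHom : continuousH1 (locR j) (resP) →ₗ[ZMod p] (layerSub j L → P) :=
  descendLin (V := levelCocycles₁ (locR j) (resP)) (W := continuousH1 (locR j) (resP))
    (cls₁ (locR j) (resP)) cls₁_surjective (resZ P) (resZ_eq_zero P)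

omit [FiniteDimensional (ZMod p) P] [FiniteDimensional ℚ_[q] L] in
theorem resHom_cls (c : levelCocycles₁ (locR j) (resP)) (n : layerSub j L) :
    resHom P (cls₁ (locR j) (resP) c) n = (c.1 : G → P) n :=
  congrFun (show resHom P (cls₁ (locR j) (resP) c) = resZ P c by
    rw [resHom, descendLin_apply]) n

include D in
omit [FiniteDimensional (ZMod p) P] in
theorem resHom_injective (hP : HasTrace P) : Function.Injective (resHom (j := j) P) := by
  have := D.finiteL
  let := Fintype.ofFinite (L ≃ₐ[ℚ_[q]] L)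
  obtain ⟨φ, hφ⟩ := hP
  rw [injective_iff_map_eq_zero]
  intro y hy
  obtain ⟨c, rfl⟩ := cls₁_surjective y
  have hN : ∀ n : layerSub j L, (c.1 : G → P) n = 0 := fun n =>
    (resHom_cls P c n).symm.trans (congrFun hy n)
  have hc := (mem_cocycles₁_iff _).mp (zc c)
  have hwd : ∀ g g', layerHom j L g = layerHom j L g' → (c.1 : G → P) g = (c.1 : G → P) g' := by
    intro g g' h
    have hm : g⁻¹ * g' ∈ layerSub j L := by
      rw [mem_layerSub, map_mul, map_inv, h, inv_mul_cancel]
    have h1 := hc g (g⁻¹ * g')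
    rw [mul_inv_cancel_left, hN ⟨_, hm⟩, map_zero, zero_add] at h1
    exact h1.symm
  choose s hs using layerHom_surjective j L D.toIsFieldGroup
  obtain ⟨a, ha⟩ : ∃ a : P, a = ∑ h : L ≃ₐ[ℚ_[q]] L,
      P.ρ h (φ (P.ρ h⁻¹ ((c.1 : G → P) (s h)))) := ⟨_, rfl⟩
  refine cls₁_eq_zero_iff.2 ⟨-a, funext fun g => ?_⟩
  let g₀ := layerHom j L g
  have key : P.ρ g₀ a = a - (c.1 : G → P) g := by
    have h1 : ∀ h, P.ρ g₀ (P.ρ h (φ (P.ρ h⁻¹ ((c.1 : G → P) (s h)))))
        = P.ρ (g₀ * h) (φ (P.ρ (g₀ * h)⁻¹ ((c.1 : G → P) (s (g₀ * h)))))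
          - P.ρ (g₀ * h) (φ (P.ρ (g₀ * h)⁻¹ ((c.1 : G → P) g))) := by
      intro h
      have h2 : (c.1 : G → P) (s (g₀ * h)) = P.ρ g₀ ((c.1 : G → P) (s h)) + (c.1 : G → P) g :=
        (hwd _ (g * s h) (by rw [hs, map_mul, hs])).trans (hc g (s h))
      rw [h2, map_add, map_add, map_add, add_sub_cancel_right,
        show P.ρ (g₀ * h)⁻¹ (P.ρ g₀ ((c.1 : G → P) (s h))) = P.ρ h⁻¹ ((c.1 : G → P) (s h)) by
          rw [← Module.End.mul_apply, ← map_mul, mul_inv_rev, inv_mul_cancel_right],
        map_mul, Module.End.mul_apply]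
    rw [ha, map_sum, Finset.sum_congr rfl fun h _ => h1 h, Finset.sum_sub_distrib]
    congr 1
    · exact Fintype.sum_equiv (Equiv.mulLeft g₀) _ _ fun h => rfl
    · refine Eq.trans ?_ (hφ ((c.1 : G → P) g))
      exact Fintype.sum_equiv (Equiv.mulLeft g₀) _ _ fun h => rfl
  rw [d₀₁_hom_apply, resP_apply, map_neg, show P.ρ (layerHom j L g) a = _ from key]
  abel

/-- The homomorphism attached to a map from the dual twist to `Lˣ/p`. -/
def mapHom : ((P.dualTwist ψ₀) →ₗ[ZMod p] ModP (LUnits L) p) →ₗ[ZMod p] (layerSub j L → P) where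
  toFun T n := (evalEquiv (ZMod p) P).symm ((LinearMap.proj n).comp ((kbar D).comp T) :
    Dual (ZMod p) (Dual (ZMod p) P))
  map_add' S T := funext fun n => by
    rw [Pi.add_apply, ← map_add]
    congr 1
    exact LinearMap.ext fun l => congrFun ((kbar D).map_add (S l) (T l)) n
  map_smul' c T := funext fun n => by
    rw [RingHom.id_apply, Pi.smul_apply, ← map_smul]
    congr 1
    exact LinearMap.ext fun l => congrFun ((kbar D).map_smul c (T l)) n

omit [FiniteDimensional ℚ_[q] L] in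
theorem apply_mapHom (T : (P.dualTwist ψ₀) →ₗ[ZMod p] ModP (LUnits L) p) (n : layerSub j L)
    (l : Dual (ZMod p) P) : l (mapHom D P T n) = kbar D (T l) n :=
  apply_evalEquiv_symm_apply (ZMod p) P l _

omit [FiniteDimensional ℚ_[q] L] in
theorem mapHom_injective : Function.Injective (mapHom D P) := fun S T h =>
  LinearMap.ext fun l => kbar_injective D (funext fun n => by
    rw [← apply_mapHom, ← apply_mapHom, h])

include D in
omit [FiniteDimensional ℚ_[q] L] in
theorem resHom_mem (y : continuousH1 (locR j) (resP)) :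
    ∃ T ∈ homInv (P.dualTwist ψ₀) (redMod p (L ≃ₐ[ℚ_[q]] L) (LUnits L)),
      mapHom D P T = resHom P y := by
  obtain ⟨c, rfl⟩ := cls₁_surjective y
  let E : (P.dualTwist ψ₀) →ₗ[ZMod p] (layerSub j L → ZMod p) :=
    LinearMap.pi fun n => Dual.eval (ZMod p) P ((c.1 : G → P) n)
  have hE : ∀ (l : Dual (ZMod p) P) (n : layerSub j L), E l n = l ((c.1 : G → P) n) :=
    fun _ _ => rfl
  have hr : ∀ l, E l ∈ LinearMap.range (kbar D) := fun l =>
    exists_kbar_eq D (E l) (fun n m => by
      rw [hE, hE, hE, Subgroup.coe_mul, cocycle_mul_layerSub P (zc c), map_add])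
      ((IsLevelConstant₁.precomp (rH := locR j) (layerSub j L).subtype (fun _ => rfl) c.2).comp
        (show Dual (ZMod p) P from l))
  let T : (P.dualTwist ψ₀) →ₗ[ZMod p] ModP (LUnits L) p :=
    (LinearEquiv.ofInjective (kbar D) (kbar_injective D)).symm.toLinearMap.comp
      (E.codRestrict (LinearMap.range (kbar D)) hr)
  have hT : ∀ l, kbar D (T l) = E l := fun l =>
    LinearEquiv.ofInjective_symm_apply (kbar D) (h := kbar_injective D) ⟨E l, hr l⟩
  refine ⟨T, mem_homInv.mpr fun σ l => kbar_injective D (funext fun n => ?_), funext fun n => ?_⟩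
  · obtain ⟨g, rfl⟩ := layerHom_surjective j L D.toIsFieldGroup σ
    set m : layerSub j L := ⟨g⁻¹ * n * g, by
      have := Subgroup.Normal.conj_mem (inferInstance : (layerSub j L).Normal) _ n.2 g⁻¹
      rwa [inv_inv] at this⟩
    have hn : n = ⟨g * m * g⁻¹, Subgroup.Normal.conj_mem inferInstance _ m.2 g⟩ :=
      Subtype.ext (by simp [m, mul_assoc])
    refine (congrFun (hT _) n).trans ((hE _ n).trans ?_)
    refine Eq.trans ?_ (congrArg
      (fun t => kbar D ((redMod p (L ≃ₐ[ℚ_[q]] L) (LUnits L)).ρ (layerHom j L g) (T l)) t) hn).symm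
    refine Eq.trans ?_ (kbar_conj D (T l) g m).symm
    refine Eq.trans ?_ (congrArg ((ψ g : ZMod p) * ·) ((congrFun (hT l) m).trans (hE l m))).symm
    show (ψ₀ (layerHom j L g) : ZMod p)
      * (show Dual (ZMod p) P from l) (P.ρ (layerHom j L g)⁻¹ ((c.1 : G → P) n)) = _
    rw [D.descend]
    congr 2
    have h1 : (c.1 : G → P) (g * (m : G)) = P.ρ (layerHom j L g) ((c.1 : G → P) m)
        + (c.1 : G → P) g := (mem_cocycles₁_iff _).mp (zc c) g m
    have h2 : (c.1 : G → P) ((n : G) * g) = (resP).ρ (n : G) ((c.1 : G → P) g)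
        + (c.1 : G → P) n := (mem_cocycles₁_iff _).mp (zc c) n g
    rw [resP_layerSub, show (n : G) * g = g * (m : G) by simp [m, mul_assoc], h1] at h2
    have h3 : P.ρ (layerHom j L g) ((c.1 : G → P) m) = (c.1 : G → P) n :=
      add_right_cancel (h2.trans (add_comm _ _))
    rw [← h3, ← Module.End.mul_apply, ← map_mul, inv_mul_cancel, map_one, Module.End.one_apply]
  · refine (forall_dual_apply_eq_zero_iff (ZMod p) _).mp (fun l => ?_) |> sub_eq_zero.mp
    rw [map_sub, apply_mapHom, resHom_cls, hT, hE, sub_self]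

include D in
theorem mapHom_mem (hP : HasTrace P) (T : (P.dualTwist ψ₀) →ₗ[ZMod p] ModP (LUnits L) p)
    (hT : T ∈ homInv (P.dualTwist ψ₀) (redMod p (L ≃ₐ[ℚ_[q]] L) (LUnits L))) :
    ∃ y, resHom (j := j) P y = mapHom D P T := by
  classical
  have := D.finiteL
  let := Fintype.ofFinite (L ≃ₐ[ℚ_[q]] L)
  obtain ⟨φ, hφ⟩ := hP
  set f := mapHom D P T with hf
  have hext : ∀ {u v : P}, (∀ l : Dual (ZMod p) P, l u = l v) → u = v := fun h =>
    sub_eq_zero.mp ((forall_dual_apply_eq_zero_iff (ZMod p) _).mp fun l => by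
      rw [map_sub, h l, sub_self])
  have hmul : ∀ n m, f (n * m) = f n + f m := fun n m => hext fun l => by
    rw [map_add, hf, apply_mapHom, apply_mapHom, apply_mapHom, kbar_mul]
  have hconj : ∀ (g : G) (n : layerSub j L),
      f ⟨g * n * g⁻¹, Subgroup.Normal.conj_mem inferInstance _ n.2 g⟩
        = P.ρ (layerHom j L g) (f n) := fun g n => hext fun l => by
    obtain ⟨l', hl'⟩ : ∃ l', (show Dual (ZMod p) P from
        (P.dualTwist ψ₀).ρ (layerHom j L g) l') = l :=
      ⟨(P.dualTwist ψ₀).ρ (layerHom j L g)⁻¹ l, by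
        show (P.dualTwist ψ₀).ρ _ ((P.dualTwist ψ₀).ρ _ l) = l
        rw [← Module.End.mul_apply, ← map_mul, mul_inv_cancel, map_one]; rfl⟩
    subst hl'
    rw [hf, apply_mapHom]
    refine (congrArg (fun x => kbar D x _) (mem_homInv.mp hT (layerHom j L g) l')).trans ?_
    refine (kbar_conj D (T l') g n).trans ?_
    rw [← D.descend]
    show _ = (ψ₀ (layerHom j L g) : ZMod p) * (show Dual (ZMod p) P from l')
      (P.ρ (layerHom j L g)⁻¹ (P.ρ (layerHom j L g) (mapHom D P T n)))
    rw [← Module.End.mul_apply (P.ρ (layerHom j L g)⁻¹), ← map_mul, inv_mul_cancel, map_one,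
      Module.End.one_apply, apply_mapHom]
  have hlev : IsLevelConstant₁ (locR (j.comp (layerSub j L).subtype)) f := by
    let b := Module.finBasis (ZMod p) (Dual (ZMod p) P)
    choose F hF hlevF using fun i => kbar_level D (T (b i))
    have := hF
    refine ⟨⨆ i, F i, inferInstance, fun g s hs => ?_⟩
    refine sub_eq_zero.mp ((forall_dual_apply_eq_zero_iff (ZMod p) _).mp fun l => ?_)
    have : (Dual.eval (ZMod p) P (f (g * s) - f g)) = 0 := b.ext fun i => by
      show b i (f (g * s) - f g) = 0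
      rw [map_sub, hf, apply_mapHom, apply_mapHom]
      rw [hlevF i g s (levelSubgroup_anti _ (le_iSup F i) hs), sub_self]
    exact LinearMap.congr_fun this l
  obtain ⟨F, hF, hFle⟩ := D.exists_level
  have := finite_quotient_level j hF
  have : Finite (G ⧸ layerSub j L) := Finite.of_surjective
    (Subgroup.quotientMapOfLE hFle) fun x => by
      obtain ⟨g, rfl⟩ := QuotientGroup.mk_surjective x
      exact ⟨QuotientGroup.mk g, rfl⟩
  let : Fintype (G ⧸ layerSub j L) := Fintype.ofFinite _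
  let c : levelCocycles₁ (locR j) (resP) := mkZ₁
    (cor₁ (layerSub j L) (resP) (φ ∘ f))
    (cor₁_mem_cocycles₁ ((mem_cocycles₁_iff (A := Rep.res (layerSub j L).subtype (resP)) _).2
      fun n m => by
        show φ (f (n * m)) = (resP).ρ (n : G) (φ (f m)) + φ (f n)
        rw [resP_layerSub, hmul, map_add, add_comm]; rfl))
    (isLevelConstant₁_cor₁ ⟨F, hF, hFle⟩ (hlev.comp φ))
  refine ⟨cls₁ (locR j) (resP) c, funext fun n => ?_⟩
  rw [resHom_cls]
  show cor₁ (layerSub j L) (resP) (φ ∘ f) (n : G) = f n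
  rw [cor₁_apply]
  have hfix : ∀ x : G ⧸ layerSub j L, (n : G) • x = x := fun x => by
    obtain ⟨g, rfl⟩ := QuotientGroup.mk_surjective x
    refine (QuotientGroup.eq.mpr ?_)
    have := Subgroup.Normal.conj_mem (inferInstance : (layerSub j L).Normal) _
      (inv_mem n.2) g⁻¹
    simpa [smul_eq_mul, mul_assoc] using this
  let π : G ⧸ layerSub j L → (L ≃ₐ[ℚ_[q]] L) := fun x => layerHom j L x.out
  have hπ : Function.Bijective π := by
    refine ⟨fun x y h => ?_, fun σ => ?_⟩
    · rw [← QuotientGroup.out_eq' x, ← QuotientGroup.out_eq' y, QuotientGroup.eq, mem_layerSub,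
        map_mul, map_inv, inv_mul_eq_one]
      exact h
    · obtain ⟨g, rfl⟩ := layerHom_surjective j L D.toIsFieldGroup σ
      refine ⟨QuotientGroup.mk g, ?_⟩
      obtain ⟨m, hm⟩ := QuotientGroup.mk_out_eq_mul (layerSub j L) g
      show layerHom j L (QuotientGroup.mk g).out = _
      rw [hm, map_mul, (mem_layerSub j L).mp m.2, mul_one]
  refine (Fintype.sum_equiv (Equiv.ofBijective π hπ) _
    (fun σ => P.ρ σ (φ (P.ρ σ⁻¹ (f n)))) fun x => ?_).trans (hφ (f n))
  show P.ρ (layerHom j L ((n : G) • x).out) (φ (f (cosetShift (layerSub j L) (n : G) x))) = _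
  rw [hfix x]
  show _ = P.ρ (layerHom j L x.out) (φ (P.ρ (layerHom j L x.out)⁻¹ (f n)))
  congr 2
  rw [← map_inv, ← hconj]
  congr 1
  refine Subtype.ext ?_
  show ((n : G) • x).out⁻¹ * (n : G) * x.out = x.out⁻¹ * n * x.out⁻¹⁻¹
  rw [hfix x, inv_inv]

include D in
/-- **Kummer theory for relatively projective modules.** -/
theorem finrank_H1_layer (hP : HasTrace P) :
    finrank (ZMod p) (continuousH1 (locR j) (resP))
      = finrank (ZMod p) (homInv (P.dualTwist ψ₀) (redMod p (L ≃ₐ[ℚ_[q]] L) (LUnits L))) := by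
  let M := (mapHom D P).comp
    (homInv (P.dualTwist ψ₀) (redMod p (L ≃ₐ[ℚ_[q]] L) (LUnits L))).subtype
  have hM : Function.Injective M := (mapHom_injective D P).comp Subtype.val_injective
  have e : LinearMap.range (resHom (j := j) P) = LinearMap.range M := by
    ext f
    constructor
    · rintro ⟨y, rfl⟩
      obtain ⟨T, hT, h⟩ := resHom_mem D P y
      exact ⟨⟨T, hT⟩, h⟩
    · rintro ⟨⟨T, hT⟩, rfl⟩
      exact mapHom_mem D P hP T hT
  rw [← LinearMap.finrank_range_of_inj (resHom_injective D P hP),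
    ← LinearMap.finrank_range_of_inj hM, e]

end H1

end FLTAgent.GWEuler.LocalEuler
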