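import Fermat.Agent.GWEuler.InductionVanishing
import Fermat.Agent.GWEuler.LocalEuler.Sequence
import Fermat.Agent.GWEuler.LocalEuler.Kummer
import Fermat.Agent.GWEuler.Pairing

/-!
# The local Euler characteristic

`localEuler`: `h¹(M) = h⁰(M) + h⁰(M^∨(1))`, plus `dim M` when `q = p`, for a finite module of the
group of `ℚ_q`; both sides are additive and agree on relatively projective modules.
-/

set_option autoImplicit false

noncomputable section

open CategoryTheory Module groupCohomology ExtCitation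

namespace FLTAgent.GWEuler.LocalEuler

open FLTAgent.LocalDuality

variable {q : ℕ} [Fact q.Prime] {p : ℕ} [Fact p.Prime] {G : Type} [Group G]
  {j : G →* LocalGal q} {L : IntermediateField ℚ_[q] (PadicAlgCl q)} [IsGalois ℚ_[q] L]
  [FiniteDimensional ℚ_[q] L]
  {ζ : (PadicAlgCl q)ˣ} {ψ : G →* (ZMod p)ˣ} {ψ₀ : (L ≃ₐ[ℚ_[q]] L) →* (ZMod p)ˣ}

variable (p q) in
/-- `1` at `q = p`. -/
def degTerm : ℕ := if p = q then 1 else 0

variable (ψ) in
/-- The defect of a smooth module. -/
def localDefect (M : Rep (ZMod p) G) : ℤ :=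
  (finrank (ZMod p) (continuousH1 (locR j) M) : ℤ) - finrank (ZMod p) M.ρ.invariants
    - finrank (ZMod p) (M.dualTwist ψ).ρ.invariants - degTerm q p * finrank (ZMod p) M

variable (D : MuLayer j L ζ ψ ψ₀)

include D in
omit [FiniteDimensional ℚ_[q] L] in
theorem finrank_invariants_res (P : Rep (ZMod p) (L ≃ₐ[ℚ_[q]] L)) :
    finrank (ZMod p) (Rep.res (layerHom j L) P).ρ.invariants = finrank (ZMod p) P.ρ.invariants := by
  have h : ((Rep.res (layerHom j L) P).ρ.invariants : Submodule (ZMod p) P) = P.ρ.invariants :=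
    le_antisymm (fun v hv σ => by
      obtain ⟨g, rfl⟩ := layerHom_surjective j L D.toIsFieldGroup σ
      exact hv g) fun v hv g => hv (layerHom j L g)
  exact (LinearEquiv.ofEq _ _ h).finrank_eq

include D in
omit [FiniteDimensional ℚ_[q] L] in
theorem finrank_invariants_dual (P : Rep (ZMod p) (L ≃ₐ[ℚ_[q]] L)) :
    finrank (ZMod p) ((Rep.res (layerHom j L) P).dualTwist ψ).ρ.invariants
      = finrank (ZMod p) (P.dualTwist ψ₀).ρ.invariants := by
  have hcomp : ∀ (g : G) (f : Dual (ZMod p) P),
      (show Dual (ZMod p) P from ((Rep.res (layerHom j L) P).dualTwist ψ).ρ g f)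
        = (show Dual (ZMod p) P from (P.dualTwist ψ₀).ρ (layerHom j L g) f) := fun g f =>
    LinearMap.ext fun a => by
      show (ψ g : ZMod p) * f (P.ρ (layerHom j L g⁻¹) a)
        = (ψ₀ (layerHom j L g) : ZMod p) * f (P.ρ (layerHom j L g)⁻¹ a)
      rw [D.descend, map_inv]
  have h : (((Rep.res (layerHom j L) P).dualTwist ψ).ρ.invariants :
      Submodule (ZMod p) (Dual (ZMod p) P))
      = (P.dualTwist ψ₀).ρ.invariants := by
    refine le_antisymm (fun f hf σ => ?_) fun f hf g => (hcomp g f).trans (hf _)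
    obtain ⟨g, rfl⟩ := layerHom_surjective j L D.toIsFieldGroup σ
    exact (hcomp g f).symm.trans (hf g)
  exact (LinearEquiv.ofEq _ _ h).finrank_eq

include D in
omit [FiniteDimensional ℚ_[q] L] in
theorem isSmooth_res_layer (P : Rep (ZMod p) (L ≃ₐ[ℚ_[q]] L)) :
    IsSmooth (locR j) (Rep.res (layerHom j L) P) := by
  obtain ⟨F, hF, hle⟩ := D.exists_level
  refine ⟨F, hF, fun s hs => ?_⟩
  show P.ρ (layerHom j L s) = 1
  rw [(mem_layerSub j L).mp (hle hs), map_one]

include D in
omit [FiniteDimensional ℚ_[q] L] in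
theorem isAdditive_localDefect :
    IsAdditive fun P : Rep (ZMod p) (L ≃ₐ[ℚ_[q]] L) =>
      localDefect (j := j) ψ (Rep.res (layerHom j L) P) := by
  intro A B C _ _ _ ι π hι hπ hinj hsurj hex
  have hD := D.toCycloField
  have : FiniteDimensional (ZMod p) (Rep.res (layerHom j L) A) :=
    inferInstanceAs (FiniteDimensional (ZMod p) A)
  have : FiniteDimensional (ZMod p) (Rep.res (layerHom j L) B) :=
    inferInstanceAs (FiniteDimensional (ZMod p) B)
  have : FiniteDimensional (ZMod p) (Rep.res (layerHom j L) C) :=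
    inferInstanceAs (FiniteDimensional (ZMod p) C)
  let S : SmoothSES (locR j) (Rep.res (layerHom j L) A) (Rep.res (layerHom j L) B)
      (Rep.res (layerHom j L) C) :=
    { ι := ι
      π := π
      ι_equiv := fun g a => hι _ a
      π_equiv := fun g b => hπ _ b
      ι_injective := hinj
      π_surjective := hsurj
      exact := hex
      smooth := isSmooth_res_layer D B }
  have : FiniteDimensional (ZMod p) ((Rep.res (layerHom j L) C).dualTwist ψ) :=
    inferInstanceAs (FiniteDimensional (ZMod p) (Dual (ZMod p) C))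
  have h := finrank_H₁_add S hD.smoothChar hD.finrank_H2 (hD.good S.smooth_left) (hD.good S.smooth)
    (hD.good S.smooth_right) (hD.good (isSmooth_dualTwist hD.smoothChar S.smooth_right))
  have hr := π.finrank_range_add_finrank_ker
  have hk : LinearMap.ker π = LinearMap.range ι := Submodule.ext fun b => hex b
  rw [hk, LinearMap.range_eq_top.mpr hsurj, finrank_top, LinearMap.finrank_range_of_inj hinj] at hr
  have hr' : (finrank (ZMod p) (Rep.res (layerHom j L) B) : ℤ)
      = finrank (ZMod p) (Rep.res (layerHom j L) A)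
        + finrank (ZMod p) (Rep.res (layerHom j L) C) := by
    show (finrank (ZMod p) B : ℤ) = finrank (ZMod p) A + finrank (ZMod p) C
    omega
  simp only [localDefect]
  rw [hr', mul_add]
  linarith [h]

include D in
theorem localDefect_eq_zero_of_hasTrace (P : Rep (ZMod p) (L ≃ₐ[ℚ_[q]] L))
    [FiniteDimensional (ZMod p) P] (hP : HasTrace P) :
    localDefect (j := j) ψ (Rep.res (layerHom j L) P) = 0 := by
  have : NeZero p := ⟨(Fact.out : p.Prime).ne_zero⟩
  have hP' := hasTrace_dualTwist P ψ₀ hP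
  have : FiniteDimensional (ZMod p) (P.dualTwist ψ₀) :=
    inferInstanceAs (FiniteDimensional (ZMod p) (Dual (ZMod p) P))
  let z : L := ⟨(ζ : PadicAlgCl q), D.mem⟩
  have hz : IsPrimitiveRoot z p :=
    IsPrimitiveRoot.of_map_of_injective (f := L.val) (IsPrimitiveRoot.coe_units_iff.mpr D.prim)
      L.val.injective
  have hzψ : ∀ σ : L ≃ₐ[ℚ_[q]] L, σ z = z ^ ((ψ₀ σ : (ZMod p)ˣ) : ZMod p).val := by
    intro σ
    obtain ⟨g, rfl⟩ := layerHom_surjective j L D.toIsFieldGroup σ
    apply Subtype.ext
    rw [coe_layerHom, D.descend, SubmonoidClass.coe_pow]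
    exact D.apply_zeta g
  have hval := redMod_lUnits (isAdditive_homInv (P.dualTwist ψ₀) hP') hz ψ₀ hzψ
  have h1 := finrank_H1_layer D P hP
  have h2 := finrank_homInv_ofChar P ψ₀
  have h3 := finrank_homInv_trivial (P.dualTwist ψ₀) hP'
  have h4 := finrank_homInv_funRep (P.dualTwist ψ₀)
  have h5 : finrank (ZMod p) (P.dualTwist ψ₀) = finrank (ZMod p) P := Subspace.dual_finrank_eq
  have h6 : finrank (ZMod p) (Rep.res (layerHom j L) P) = finrank (ZMod p) P := rfl
  simp only [h2, h3, h4, h5] at hval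
  rw [localDefect, finrank_invariants_res D, finrank_invariants_dual D, h1, h6, hval, degTerm]
  split_ifs <;> push_cast <;> ring

/-- **The local Euler characteristic formula.** -/
theorem localDefect_eq_zero (hD : CycloField p j ⊥ ζ ψ) {M : Rep (ZMod p) G}
    [FiniteDimensional (ZMod p) M] (hM : IsSmooth (locR j) M) :
    localDefect (j := j) ψ M = 0 := by
  obtain ⟨F₁, hF₁, h₁⟩ := hD.exists_level_ker
  obtain ⟨F₂, hF₂, h₂⟩ := id hM
  obtain ⟨F, hF, hn, hle₁, hle₂⟩ := exists_normal_sup (r := locR j) hF₁ hF₂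
  have := hn
  obtain ⟨E, -, hE⟩ := hD.toIsFieldGroup.exists_sub (levelSubgroup (locR j) F) hF le_rfl
  have := hE.finite
  have hjs : Function.Surjective j := fun τ => hD.toIsFieldGroup.exists_eq
    (by rw [IntermediateField.fixingSubgroup_bot]; trivial)
  have hEfix : E.fixingSubgroup = (levelSubgroup (locR j) F).map j := by
    rw [← hE.range_eq, MonoidHom.range_eq_map, ← Subgroup.map_map, ← MonoidHom.range_eq_map,
      Subgroup.range_subtype]
  have : E.fixingSubgroup.Normal := by
    rw [hEfix]; exact Subgroup.Normal.map hn j hjs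
  have : IsGalois ℚ_[q] E := (InfiniteGalois.normal_iff_isGalois E).mp inferInstance
  have hker : ∀ g, layerHom j E g = 1 → g ∈ levelSubgroup (locR j) F := fun g hg => by
    have : j g ∈ E.fixingSubgroup := (mem_layerSub j E).mpr hg
    rw [hEfix] at this
    obtain ⟨n, hn', hng⟩ := this
    exact hD.toIsFieldGroup.injective hng ▸ hn'
  have hsurj := layerHom_surjective j E hD.toIsFieldGroup
  have hwd : ∀ g g', layerHom j E g = layerHom j E g' → g⁻¹ * g' ∈ levelSubgroup (locR j) F :=
    fun g g' h => hker _ (by rw [map_mul, map_inv, h, inv_mul_cancel])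
  have hψker : (layerHom j E).ker ≤ ψ.ker := fun g hg => h₁ (hle₁ (hker g hg))
  let ψ₀ : (E ≃ₐ[ℚ_[q]] E) →* (ZMod p)ˣ := MonoidHom.liftOfSurjective _ hsurj ⟨ψ, hψker⟩
  have hψ₀ : ∀ g, ψ₀ (layerHom j E g) = ψ g := fun g =>
    MonoidHom.liftOfRightInverse_comp_apply _ _ _ _ g
  choose s hs using id hsurj
  have hρwd : ∀ g g', layerHom j E g = layerHom j E g' → M.ρ g = M.ρ g' := fun g g' h => by
    have h3 : M.ρ (g⁻¹ * g') = 1 := h₂ _ (hle₂ (hwd g g' h))
    have h4 : M.ρ g' = M.ρ g * M.ρ (g⁻¹ * g') := by rw [← map_mul, mul_inv_cancel_left]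
    rw [h4, h3, mul_one]
  let ρ₀ : Representation (ZMod p) (E ≃ₐ[ℚ_[q]] E) M :=
    { toFun := fun σ => M.ρ (s σ)
      map_one' := (hρwd _ 1 (by rw [hs, map_one])).trans (map_one _)
      map_mul' := fun σ τ => (hρwd _ (s σ * s τ) (by rw [map_mul, hs, hs, hs])).trans
        (map_mul _ _ _) }
  let M₀ : Rep (ZMod p) (E ≃ₐ[ℚ_[q]] E) := Rep.of ρ₀
  have hres : ∀ g, M₀.ρ (layerHom j E g) = M.ρ g := fun g => hρwd _ _ (hs _)
  have hζE : (ζ : PadicAlgCl q) ∈ E := hE.mem_of_fixed fun n =>
    hD.fix_of_eq_one (h₁ (hle₁ n.2))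
  have D : MuLayer j E ζ ψ ψ₀ :=
    { toCycloField := hD, finiteL := hE.finite, mem := hζE, descend := hψ₀ }
  have h := (isAdditive_localDefect D).eq_zero_of_hasTrace
    (fun P _ hP => localDefect_eq_zero_of_hasTrace D P hP) M₀
  have e : Rep.res (layerHom j E) M₀ = M := by
    have hρ : MonoidHom.comp ρ₀ (layerHom j E) = M.ρ := MonoidHom.ext hres
    show Rep.of (MonoidHom.comp ρ₀ (layerHom j E)) = M
    rw [hρ]
  have h' : localDefect (j := j) ψ (Rep.res (layerHom j E) M₀) = 0 := h
  rwa [e] at h'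

end FLTAgent.GWEuler.LocalEuler

namespace FLTAgent.GWEuler

open FLTAgent.LocalDuality

variable {p : ℕ} [Fact p.Prime]

local notation "Γℚ" => AlgebraicClosure ℚ ≃ₐ[ℚ] AlgebraicClosure ℚ

/-- The local Euler characteristic at `q`, for a smooth module of the local group. -/
theorem localEuler_of_smooth {q : Nat.Primes} {M : Rep (ZMod p) (primeLocalGaloisGroup q)}
    [FiniteDimensional (ZMod p) M] (hM : IsSmooth (primeLocalToGlobal q) M) :
    Module.Finite (ZMod p) (continuousH1 (primeLocalToGlobal q) M) ∧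
    finrank (ZMod p) (continuousH1 (primeLocalToGlobal q) M)
      = finrank (ZMod p) M.ρ.invariants
        + finrank (ZMod p) (M.dualTwist ((cycloChar p).comp (primeLocalToGlobal q))).ρ.invariants
        + (if q = pPrime p then finrank (ZMod p) M else 0) := by
  refine ⟨(local_good hM).finite, ?_⟩
  have h := LocalEuler.localDefect_eq_zero (exists_cycloField (p := p) q).choose_spec (M := M) hM
  change (finrank (ZMod p) (continuousH1 (primeLocalToGlobal q) M) : ℤ) - _ - _ - _ = 0 at h
  have hq : (q = pPrime p) ↔ (p = (q : ℕ)) :=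
    ⟨fun h => by rw [h]; rfl, fun h => Subtype.ext h.symm⟩
  unfold LocalEuler.degTerm at h
  split_ifs with hqp
  · rw [if_pos (hq.mp hqp), Nat.cast_one, one_mul] at h
    omega
  · rw [if_neg (fun h' => hqp (hq.mpr h')), Nat.cast_zero, zero_mul] at h
    omega

/-- The local Euler characteristic of a module unramified outside `S`. -/
theorem localEuler (q : Nat.Primes) {S : Finset Nat.Primes} (M : Rep (ZMod p) Γℚ)
    [FiniteDimensional (ZMod p) M] (hM : SLevel S M) :
    Module.Finite (ZMod p)
      (continuousH1 (primeLocalToGlobal q) (Rep.res (primeLocalToGlobal q) M)) ∧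
    finrank (ZMod p) (continuousH1 (primeLocalToGlobal q) (Rep.res (primeLocalToGlobal q) M))
      = finrank (ZMod p) (Rep.res (primeLocalToGlobal q) M).ρ.invariants
        + finrank (ZMod p)
            (Rep.res (primeLocalToGlobal q) (M.dualTwist (cycloChar p))).ρ.invariants
        + (if q = pPrime p then finrank (ZMod p) M else 0) := by
  have : FiniteDimensional (ZMod p) (Rep.res (primeLocalToGlobal q) M) :=
    inferInstanceAs (FiniteDimensional (ZMod p) M)
  have h := localEuler_of_smooth (hM.smooth_loc q)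
  refine ⟨h.1, h.2.trans ?_⟩
  have hcomp : ∀ (g : primeLocalGaloisGroup q) (f : Dual (ZMod p) M),
      (show Dual (ZMod p) M from ((Rep.res (primeLocalToGlobal q) M).dualTwist
        ((cycloChar p).comp (primeLocalToGlobal q))).ρ g f)
        = (show Dual (ZMod p) M from
            (Rep.res (primeLocalToGlobal q) (M.dualTwist (cycloChar p))).ρ g f) :=
    fun g f => LinearMap.ext fun a => by
      show _ * f (M.ρ (primeLocalToGlobal q g⁻¹) a) = _ * f (M.ρ (primeLocalToGlobal q g)⁻¹ a)
      rw [map_inv]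
      rfl
  have hinv : ((((Rep.res (primeLocalToGlobal q) M).dualTwist
      ((cycloChar p).comp (primeLocalToGlobal q))).ρ.invariants) : Submodule
        (ZMod p) (Dual (ZMod p) M))
      = (Rep.res (primeLocalToGlobal q) (M.dualTwist (cycloChar p))).ρ.invariants :=
    le_antisymm (fun f hf g => (hcomp g f).symm.trans (hf g))
      fun f hf g => (hcomp g f).trans (hf g)
  rw [(LinearEquiv.ofEq _ _ hinv).finrank_eq]

end FLTAgent.GWEuler
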