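import Fermat.Agent.GWEuler.Defs
import Mathlib.RepresentationTheory.Invariants
import Mathlib.LinearAlgebra.Dual.Lemmas

/-!
# Equivariant maps out of a relatively projective module

Their dimension is additive in the target (`isAdditive_homInv`), with values computed at the
regular and one-dimensional modules.  Used to evaluate the local defect.
-/

set_option autoImplicit false

noncomputable section

open CategoryTheory Module groupCohomology ExtCitation

namespace FLTAgent.GWEuler.LocalEuler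

variable {p : ℕ} [Fact p.Prime] {Q : Type} [Group Q] [Finite Q]

/-- The equivariant maps between two modules. -/
abbrev homInv (P X : Rep (ZMod p) Q) : Submodule (ZMod p) (P →ₗ[ZMod p] X) :=
  (Representation.linHom P.ρ X.ρ).invariants

omit [Finite Q] in
theorem mem_homInv {P X : Rep (ZMod p) Q} {T : P →ₗ[ZMod p] X} :
    T ∈ homInv P X ↔ ∀ (g : Q) (v : P), T (P.ρ g v) = X.ρ g (T v) := by
  constructor
  · intro h g v
    conv_lhs => rw [← h g]
    show X.ρ g (T (P.ρ g⁻¹ (P.ρ g v))) = _
    rw [← Module.End.mul_apply, ← map_mul, inv_mul_cancel, map_one, Module.End.one_apply]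
  · intro h g
    refine LinearMap.ext fun v => ?_
    show X.ρ g (T (P.ρ g⁻¹ v)) = T v
    rw [← h, ← Module.End.mul_apply, ← map_mul, mul_inv_cancel, map_one, Module.End.one_apply]

variable (P : Rep (ZMod p) Q) [FiniteDimensional (ZMod p) P]

/-- Composition with an equivariant map. -/
def homMap {X Y : Rep (ZMod p) Q} (f : X →ₗ[ZMod p] Y)
    (hf : ∀ (g : Q) (x : X), f (X.ρ g x) = Y.ρ g (f x)) :
    homInv P X →ₗ[ZMod p] homInv P Y :=
  ((LinearMap.llcomp (ZMod p) P X Y f).comp (homInv P X).subtype).codRestrict _ fun T =>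
    mem_homInv.mpr fun g v => by
      show f (T.1 (P.ρ g v)) = Y.ρ g (f (T.1 v))
      rw [mem_homInv.mp T.2, hf]

omit [Finite Q] in
theorem finite_homInv (X : Rep (ZMod p) Q) [FiniteDimensional (ZMod p) X] :
    FiniteDimensional (ZMod p) (homInv P X) :=
  inferInstanceAs (FiniteDimensional (ZMod p) (Representation.linHom P.ρ X.ρ).invariants)

/-- Dimensions of equivariant maps out of a relatively projective module are additive. -/
theorem isAdditive_homInv (hP : HasTrace P) :
    IsAdditive fun X : Rep (ZMod p) Q => (finrank (ZMod p) (homInv P X) : ℤ) := by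
  intro A B C _ _ _ ι π hι hπ hinj hsurj hex
  have := finite_homInv P A
  have := finite_homInv P B
  have := finite_homInv P C
  let := Fintype.ofFinite Q
  obtain ⟨φ, hφ⟩ := hP
  have hι' : Function.Injective (homMap P ι hι) := fun S T h => Subtype.ext (LinearMap.ext fun v =>
    hinj (LinearMap.congr_fun (congrArg Subtype.val h) v))
  have hπ' : Function.Surjective (homMap P π hπ) := by
    intro T
    obtain ⟨s, hs⟩ := π.exists_rightInverse_of_surjective (LinearMap.range_eq_top.mpr hsurj)
    let L : P →ₗ[ZMod p] B :=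
      ∑ g : Q, (B.ρ g).comp ((s.comp (T.1.comp φ)).comp (P.ρ g⁻¹))
    have hL : ∀ v, L v = ∑ g : Q, B.ρ g (s (T.1 (φ (P.ρ g⁻¹ v)))) := fun v => by
      simp [L]
    refine ⟨⟨L, mem_homInv.mpr fun h v => ?_⟩, Subtype.ext (LinearMap.ext fun v => ?_)⟩
    · rw [hL, hL, map_sum]
      refine Fintype.sum_equiv (Equiv.mulLeft h⁻¹) _ _ fun g => ?_
      show B.ρ g (s (T.1 (φ (P.ρ g⁻¹ (P.ρ h v)))))
        = B.ρ h (B.ρ (h⁻¹ * g) (s (T.1 (φ (P.ρ (h⁻¹ * g)⁻¹ v)))))
      simp only [← Module.End.mul_apply, ← map_mul, mul_inv_rev, inv_inv, mul_inv_cancel_left]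
    · show π (L v) = T.1 v
      rw [hL, map_sum]
      conv_rhs => rw [← hφ v, map_sum]
      refine Finset.sum_congr rfl fun g _ => ?_
      rw [hπ, show π (s (T.1 (φ (P.ρ g⁻¹ v)))) = T.1 (φ (P.ρ g⁻¹ v)) from LinearMap.congr_fun hs _,
        mem_homInv.mp T.2]
  have hker : LinearMap.ker (homMap P π hπ) = LinearMap.range (homMap P ι hι) := by
    ext T
    constructor
    · intro hT
      have h0 : ∀ v, ∃ a, ι a = T.1 v := fun v =>
        (hex _).mp (LinearMap.congr_fun (congrArg Subtype.val hT) v)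
      have hrange : ∀ v, T.1 v ∈ LinearMap.range ι := h0
      let S : P →ₗ[ZMod p] A :=
        (LinearEquiv.ofInjective ι hinj).symm.toLinearMap.comp (T.1.codRestrict _ hrange)
      have hS : ∀ v, ι (S v) = T.1 v := fun v => by
        have := LinearEquiv.ofInjective_symm_apply ι (h := hinj) ⟨T.1 v, hrange v⟩
        exact this
      refine ⟨⟨S, mem_homInv.mpr fun g v => hinj ?_⟩, Subtype.ext (LinearMap.ext hS)⟩
      rw [hι, hS, hS, mem_homInv.mp T.2]
    · rintro ⟨S, rfl⟩
      exact Subtype.ext (LinearMap.ext fun v => (hex _).mpr ⟨S.1 v, rfl⟩)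
  have e1 := (homMap P π hπ).finrank_range_add_finrank_ker
  rw [hker, LinearMap.range_eq_top.mpr hπ', finrank_top,
    LinearMap.finrank_range_of_inj hι'] at e1
  show (finrank (ZMod p) (homInv P B) : ℤ) =
    finrank (ZMod p) (homInv P A) + finrank (ZMod p) (homInv P C)
  omega

variable (p Q) in
/-- The regular representation on functions. -/
def funRep : Rep (ZMod p) Q := Rep.of
  ({ toFun := fun g => LinearMap.funLeft (ZMod p) (ZMod p) (fun h => g⁻¹ * h)
     map_one' := LinearMap.ext fun f => funext fun h => by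
       simp [LinearMap.funLeft_apply]
     map_mul' := fun g g' => LinearMap.ext fun f => funext fun h => by
       simp [LinearMap.funLeft_apply, mul_assoc] } : Representation (ZMod p) Q (Q → ZMod p))

omit [FiniteDimensional (ZMod p) P] [Finite Q] in
theorem finrank_homInv_funRep :
    finrank (ZMod p) (homInv P (funRep p Q)) = finrank (ZMod p) P := by
  let e : homInv P (funRep p Q) ≃ₗ[ZMod p] Dual (ZMod p) P :=
    { toFun := fun T => (LinearMap.proj (R := ZMod p) (φ := fun _ : Q => ZMod p) 1).comp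
        (show P →ₗ[ZMod p] (Q → ZMod p) from T.1)
      map_add' := fun S T => LinearMap.ext fun v => rfl
      map_smul' := fun c T => LinearMap.ext fun v => rfl
      invFun := fun l => ⟨(LinearMap.pi fun h => (show Dual (ZMod p) P from l).comp (P.ρ h⁻¹) :
          P →ₗ[ZMod p] (Q → ZMod p)), mem_homInv.mpr fun g v => funext fun h => by
        show l (P.ρ h⁻¹ (P.ρ g v)) = l (P.ρ (g⁻¹ * h)⁻¹ v)
        simp only [← Module.End.mul_apply, ← map_mul, mul_inv_rev, inv_inv]⟩
      left_inv := fun T => Subtype.ext (LinearMap.ext fun v => funext fun h => by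
        refine (congrFun (show (show Q → ZMod p from T.1 (P.ρ h⁻¹ v)) = _ from
          mem_homInv.mp T.2 h⁻¹ v) 1).trans ?_
        exact congrArg (show Q → ZMod p from T.1 v) (show h⁻¹⁻¹ * 1 = h by rw [inv_inv, mul_one]))
      right_inv := fun l => LinearMap.ext fun v => by
        show l (P.ρ (1 : Q)⁻¹ v) = l v
        rw [inv_one, map_one, Module.End.one_apply] }
  rw [e.finrank_eq, Subspace.dual_finrank_eq]

omit [FiniteDimensional (ZMod p) P] in
theorem finrank_homInv_trivial (hP : HasTrace P) :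
    finrank (ZMod p) (homInv P (Rep.trivial (ZMod p) Q (ZMod p)))
      = finrank (ZMod p) P.ρ.invariants := by
  let := Fintype.ofFinite Q
  obtain ⟨φ, hφ⟩ := hP
  let N : P →ₗ[ZMod p] P.ρ.invariants := (∑ g : Q, P.ρ g).codRestrict _ fun v h => by
    rw [LinearMap.sum_apply, map_sum]
    refine Fintype.sum_equiv (Equiv.mulLeft h) _ _ fun g => ?_
    simp
  have hN : ∀ v, (N v : P) = ∑ g : Q, P.ρ g v := fun v => LinearMap.sum_apply _ _ _
  have hNφ : ∀ c : P.ρ.invariants, N (φ c.1) = c := fun c => Subtype.ext (by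
    rw [hN]
    conv_rhs => rw [← hφ c.1]
    exact Finset.sum_congr rfl fun g _ => by rw [c.2 g⁻¹])
  let e : homInv P (Rep.trivial (ZMod p) Q (ZMod p)) ≃ₗ[ZMod p] Dual (ZMod p) P.ρ.invariants :=
    { toFun := fun T => ((show P →ₗ[ZMod p] ZMod p from T.1).comp φ).comp P.ρ.invariants.subtype
      map_add' := fun S T => LinearMap.ext fun v => rfl
      map_smul' := fun c T => LinearMap.ext fun v => rfl
      invFun := fun l => ⟨(l.comp N : P →ₗ[ZMod p] ZMod p), mem_homInv.mpr fun g v => by
        show l (N (P.ρ g v)) = l (N v)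
        congr 1
        refine Subtype.ext ?_
        rw [hN, hN]
        refine Fintype.sum_equiv (Equiv.mulRight g) _ _ fun h => ?_
        simp⟩
      left_inv := fun T => Subtype.ext (LinearMap.ext fun v => by
        show (show P →ₗ[ZMod p] ZMod p from T.1) (φ (N v : P)) = T.1 v
        have hT : ∀ (g : Q) (w : P), (show P →ₗ[ZMod p] ZMod p from T.1) (P.ρ g w) = T.1 w :=
          fun g w => mem_homInv.mp T.2 g w
        conv_rhs => rw [← hφ v]
        rw [hN, map_sum, map_sum]
        conv_rhs => rw [map_sum]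
        refine Fintype.sum_equiv (Equiv.inv Q) _ _ fun g => ?_
        show _ = T.1 (P.ρ g⁻¹ (φ (P.ρ g⁻¹⁻¹ v)))
        rw [inv_inv]
        exact (hT g⁻¹ _).symm)
      right_inv := fun l => LinearMap.ext fun c => by
        show l (N (φ c.1)) = l c
        rw [hNφ] }
  rw [e.finrank_eq, Subspace.dual_finrank_eq]

variable (ψ : Q →* (ZMod p)ˣ)

omit [FiniteDimensional (ZMod p) P] in
theorem hasTrace_dualTwist (hP : HasTrace P) : HasTrace (P.dualTwist ψ) := by
  let := Fintype.ofFinite Q
  obtain ⟨φ, hφ⟩ := hP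
  refine ⟨φ.dualMap, fun f => LinearMap.ext fun a => ?_⟩
  rw [LinearMap.sum_apply]
  conv_rhs => rw [← hφ a, map_sum]
  refine Finset.sum_congr rfl fun g _ => ?_
  show (ψ g : ZMod p) * (((ψ g⁻¹ : (ZMod p)ˣ) : ZMod p)
    * (show Dual (ZMod p) P from f) (P.ρ (g⁻¹)⁻¹ (φ (P.ρ g⁻¹ a)))) = _
  rw [inv_inv, map_inv, ← mul_assoc, Units.mul_inv, one_mul]

omit [Finite Q] in
theorem finrank_homInv_ofChar :
    finrank (ZMod p) (homInv (P.dualTwist ψ) (ofChar ψ)) = finrank (ZMod p) P.ρ.invariants := by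
  let ev : P →ₗ[ZMod p] (P.dualTwist ψ →ₗ[ZMod p] ofChar ψ) := Dual.eval (ZMod p) P
  have hev : ∀ c : P, ev c ∈ homInv (P.dualTwist ψ) (ofChar ψ) ↔ c ∈ P.ρ.invariants := by
    intro c
    rw [mem_homInv]
    constructor
    · intro h g
      refine sub_eq_zero.mp ((forall_dual_apply_eq_zero_iff (ZMod p) _).mp fun f => ?_)
      rw [map_sub, sub_eq_zero]
      have h1 : (ψ g⁻¹ : ZMod p) * f (P.ρ (g⁻¹)⁻¹ c) = (ψ g⁻¹ : ZMod p) * f c := h g⁻¹ f
      rw [inv_inv] at h1
      exact (ψ g⁻¹).mul_right_inj.mp h1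
    · intro hc g f
      show (ψ g : ZMod p) * (show Dual (ZMod p) P from f) (P.ρ g⁻¹ c) = _
      rw [hc g⁻¹]
      rfl
  have e : P.ρ.invariants ≃ₗ[ZMod p] homInv (P.dualTwist ψ) (ofChar ψ) :=
    LinearEquiv.ofBijective ((ev.comp P.ρ.invariants.subtype).codRestrict _ fun c =>
      (hev c.1).mpr c.2)
      ⟨fun c d h => Subtype.ext (Module.eval_apply_injective (ZMod p) (congrArg Subtype.val h)),
      fun T => by
        obtain ⟨c, hc⟩ := (evalEquiv (ZMod p) P).surjective
          (show Dual (ZMod p) (Dual (ZMod p) P) from T.1)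
        have hc' : ev c = T.1 := hc
        exact ⟨⟨c, (hev c).mp (hc' ▸ T.2)⟩, Subtype.ext hc'⟩⟩
  rw [← e.finrank_eq]

end FLTAgent.GWEuler.LocalEuler
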