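import Fermat.Agent.GWEuler.Additive

/-!
# Additive functions on `A/pA` and `A[p]`

For an additive function `e` the difference `e(A/pA) - e(A[p])` only depends on the
commensurability class of the module `A` (`omega_eq_of_finiteIndex`).
-/

set_option autoImplicit false
set_option linter.unusedSectionVars false

noncomputable section

open CategoryTheory Module

namespace FLTAgent.GWEuler.LocalEuler

variable {p : ℕ} [Fact p.Prime] {G : Type} [Group G] {e : Rep (ZMod p) G → ℤ}

section Maps

variable {U V W : Rep (ZMod p) G} (f : U →ₗ[ZMod p] V)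
  (hf : ∀ (g : G) (u : U), f (U.ρ g u) = V.ρ g (f u))

/-- The range of an equivariant map. -/
def rangeRep : Rep (ZMod p) G :=
  Rep.of (V.ρ.subrepresentation (LinearMap.range f) fun g _ ⟨u, hu⟩ =>
    ⟨U.ρ g u, by rw [hf, hu]⟩)

/-- The kernel of an equivariant map. -/
def kerRep : Rep (ZMod p) G :=
  Rep.of (U.ρ.subrepresentation (LinearMap.ker f) fun g u hu => by
    show f (U.ρ g u) = 0
    rw [hf, LinearMap.mem_ker.mp hu, map_zero])

theorem finite_rangeRep [FiniteDimensional (ZMod p) V] :
    FiniteDimensional (ZMod p) (rangeRep f hf) :=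
  inferInstanceAs (FiniteDimensional (ZMod p) (LinearMap.range f))

theorem finite_kerRep [FiniteDimensional (ZMod p) U] :
    FiniteDimensional (ZMod p) (kerRep f hf) :=
  inferInstanceAs (FiniteDimensional (ZMod p) (LinearMap.ker f))

variable (he : IsAdditive e)
include he

theorem eq_kerRep_add_rangeRep [FiniteDimensional (ZMod p) U] [FiniteDimensional (ZMod p) V] :
    e U = e (kerRep f hf) + e (rangeRep f hf) := by
  have := finite_rangeRep f hf
  have := finite_kerRep f hf
  exact he (kerRep f hf) U (rangeRep f hf) (LinearMap.ker f).subtype f.rangeRestrict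
    (fun _ _ => rfl) (fun g u => Subtype.ext (hf g u)) (LinearMap.ker f).injective_subtype
    f.surjective_rangeRestrict fun u =>
      ⟨fun h => ⟨⟨u, congrArg Subtype.val h⟩, rfl⟩, fun ⟨a, ha⟩ => Subtype.ext (ha ▸ a.2)⟩

theorem eq_rangeRep_of_injective [FiniteDimensional (ZMod p) U] [FiniteDimensional (ZMod p) V]
    (hinj : Function.Injective f) : e U = e (rangeRep f hf) := by
  have := finite_rangeRep f hf
  exact he.eq_of_bijective U (rangeRep f hf) f.rangeRestrict (fun g u => Subtype.ext (hf g u))
    ⟨fun a b h => hinj (congrArg Subtype.val h), f.surjective_rangeRestrict⟩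

theorem rangeRep_of_surjective [FiniteDimensional (ZMod p) V] (hsurj : Function.Surjective f) :
    e (rangeRep f hf) = e V := by
  have := finite_rangeRep f hf
  exact he.eq_of_bijective (rangeRep f hf) V (LinearMap.range f).subtype (fun _ _ => rfl)
    ⟨(LinearMap.range f).injective_subtype, fun v => ⟨⟨v, hsurj v⟩, rfl⟩⟩

theorem kerRep_of_exact {X : Rep (ZMod p) G} [FiniteDimensional (ZMod p) U]
    [FiniteDimensional (ZMod p) V] (g' : V →ₗ[ZMod p] X)
    (hg' : ∀ (g : G) (v : V), g' (V.ρ g v) = X.ρ g (g' v))
    (h : ∀ v, g' v = 0 ↔ ∃ u, f u = v) : e (kerRep g' hg') = e (rangeRep f hf) := by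
  have := finite_rangeRep f hf
  have := finite_kerRep g' hg'
  exact he.eq_of_bijective (kerRep g' hg') (rangeRep f hf)
    (Submodule.inclusion (fun v hv => (h v).mp hv : LinearMap.ker g' ≤ LinearMap.range f))
    (fun _ _ => rfl)
    ⟨Submodule.inclusion_injective _, fun v => ⟨⟨v.1, (h v.1).mpr v.2⟩, Subtype.ext rfl⟩⟩

end Maps

section Torsion

variable (p) (A : Type) [AddCommGroup A] [DistribMulAction G A]

/-- The elements killed by `p`. -/
abbrev TorP : Type := (nsmulAddMonoidHom (α := A) p).ker

instance torPModule : Module (ZMod p) (TorP p A) :=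
  AddCommGroup.zmodModule fun x => Subtype.ext x.2

/-- The action on `A[p]`. -/
def torPRep : Representation (ZMod p) G (TorP p A) where
  toFun g := AddMonoidHom.toZModLinearMap p
    (AddMonoidHom.codRestrict ((DistribSMul.toAddMonoidHom A g).comp (AddSubgroup.subtype _)) _
      fun x => by
        show p • (g • (x : A)) = 0
        rw [smul_comm, show p • (x : A) = 0 from x.2, smul_zero])
  map_one' := LinearMap.ext fun x => Subtype.ext (one_smul G (x : A))
  map_mul' g h := LinearMap.ext fun x => Subtype.ext (mul_smul g h (x : A))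

variable (G) in
/-- `A[p]` as a representation. -/
def torMod : Rep (ZMod p) G := Rep.of (torPRep (G := G) p A)

variable {A} {B : Type} [AddCommGroup B] [DistribMulAction G B]

/-- Functoriality of `torMod`. -/
def torMap (f : A →+ B) : TorP p A →ₗ[ZMod p] TorP p B :=
  AddMonoidHom.toZModLinearMap p
    ((f.comp (AddSubgroup.subtype _)).codRestrict _ fun x => by
      show p • f x = 0
      rw [← map_nsmul, show p • (x : A) = 0 from x.2, map_zero])

end Torsion

theorem mk_nsmul_eq_zero {A : Type} [AddCommGroup A] (a : A) :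
    (QuotientAddGroup.mk (p • a) : ModP A p) = 0 :=
  (QuotientAddGroup.eq_zero_iff _).mpr (show p • a ∈ pMultiples A p from ⟨a, rfl⟩)

theorem mk_range_eq_zero {A T : Type} [AddCommGroup A] [AddCommGroup T] (ι : T →+ A) (t : T) :
    (QuotientAddGroup.mk (ι t) : A ⧸ ι.range) = 0 :=
  (QuotientAddGroup.eq_zero_iff _).mpr (show ι t ∈ ι.range from ⟨t, rfl⟩)

section Step

variable {A T : Type} [AddCommGroup A] [DistribMulAction G A] [AddCommGroup T]
  [DistribMulAction G T] (ι : T →+ A) (hι : ∀ (g : G) (t : T), ι (g • t) = g • ι t)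
  (hinj : Function.Injective ι) (he : IsAdditive e)

theorem finite_torP_of_injective [Finite (TorP p A)] (hinj : Function.Injective ι) :
    Finite (TorP p T) :=
  Finite.of_injective (torMap p ι) fun _ _ h => Subtype.ext (hinj (congrArg Subtype.val h))

theorem finite_modP_of_injective [Finite (ModP A p)] [Finite (A ⧸ ι.range)]
    (hinj : Function.Injective ι) : Finite (ModP T p) := by
  classical
  let f : ModP T p →+ ModP A p := (redMap (p := p) ι).toAddMonoidHom
  let c : f.ker → A ⧸ ι.range := fun x =>
    QuotientAddGroup.mk ((QuotientAddGroup.eq_zero_iff _).mp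
      (show (QuotientAddGroup.mk (ι x.1.out) : ModP A p) = 0 by
        rw [← redMap_mk, QuotientAddGroup.out_eq']; exact x.2)).choose
  have hc : Function.Injective c := by
    intro x y hxy
    obtain ⟨t, ht⟩ := QuotientAddGroup.eq.mp hxy
    set a := ((QuotientAddGroup.eq_zero_iff _).mp
      (show (QuotientAddGroup.mk (ι x.1.out) : ModP A p) = 0 by
        rw [← redMap_mk, QuotientAddGroup.out_eq']; exact x.2)).choose with ha
    set a' := ((QuotientAddGroup.eq_zero_iff _).mp
      (show (QuotientAddGroup.mk (ι y.1.out) : ModP A p) = 0 by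
        rw [← redMap_mk, QuotientAddGroup.out_eq']; exact y.2)).choose with ha'
    have h1 : p • a = ι x.1.out := ((QuotientAddGroup.eq_zero_iff _).mp
      (show (QuotientAddGroup.mk (ι x.1.out) : ModP A p) = 0 by
        rw [← redMap_mk, QuotientAddGroup.out_eq']; exact x.2)).choose_spec
    have h2 : p • a' = ι y.1.out := ((QuotientAddGroup.eq_zero_iff _).mp
      (show (QuotientAddGroup.mk (ι y.1.out) : ModP A p) = 0 by
        rw [← redMap_mk, QuotientAddGroup.out_eq']; exact y.2)).choose_spec
    have h3 : y.1.out = x.1.out + p • t := hinj (by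
      rw [map_add, map_nsmul, ht, ← h1, ← h2, smul_add, smul_neg]; abel)
    refine Subtype.ext ?_
    rw [← QuotientAddGroup.out_eq' y.1, h3, QuotientAddGroup.mk_add, QuotientAddGroup.out_eq',
      mk_nsmul_eq_zero, add_zero]
  have : Finite f.ker := Finite.of_injective c hc
  have : Finite f.range := inferInstance
  exact Finite.of_addSubgroup_quotient f.ker

/-- The module structure on a quotient killed by `p`. -/
@[reducible] def quotModule (hp : ∀ a : A, p • a ∈ ι.range) : Module (ZMod p) (A ⧸ ι.range) :=
  AddCommGroup.zmodModule fun x => by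
    induction x using QuotientAddGroup.induction_on with
    | H a => exact (QuotientAddGroup.eq_zero_iff _).mpr (hp a)

/-- The action on a quotient killed by `p`. -/
def quotRepr (hι : ∀ (g : G) (t : T), ι (g • t) = g • ι t) (hp : ∀ a : A, p • a ∈ ι.range) :
    @Representation (ZMod p) G (A ⧸ ι.range) _ _ _ (quotModule ι hp) :=
  letI := quotModule ι hp
  { toFun := fun g => AddMonoidHom.toZModLinearMap p
      (QuotientAddGroup.map ι.range ι.range (DistribSMul.toAddMonoidHom A g)
        fun _ ⟨t, ht⟩ => ⟨g • t, by rw [hι, ht]; rfl⟩)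
    map_one' := LinearMap.ext fun x => by
      induction x using QuotientAddGroup.induction_on with
      | H a => exact congrArg QuotientAddGroup.mk (one_smul G a)
    map_mul' := fun g h => LinearMap.ext fun x => by
      induction x using QuotientAddGroup.induction_on with
      | H a => exact congrArg QuotientAddGroup.mk (mul_smul g h a) }

/-- A quotient killed by `p`, as a representation. -/
def quotMod (hι : ∀ (g : G) (t : T), ι (g • t) = g • ι t) (hp : ∀ a : A, p • a ∈ ι.range) :
    Rep (ZMod p) G :=
  letI := quotModule ι hp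
  Rep.of (quotRepr ι hι hp)

include hι hinj he

/-- One step: the subgroup contains `pA`. -/
theorem omega_step (hp : ∀ a : A, p • a ∈ ι.range) [Finite (ModP A p)] [Finite (TorP p A)] :
    e (redMod p G T) - e (torMod p T (G := G))
      = e (redMod p G A) - e (torMod p A (G := G)) := by
  classical
  have hfA : Finite (A ⧸ ι.range) := by
    refine Finite.of_surjective (α := ModP A p) (QuotientAddGroup.map _ _ (AddMonoidHom.id A)
      (fun x (hx : x ∈ pMultiples A p) => by obtain ⟨a, rfl⟩ := hx; exact hp a)) fun x => ?_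
    obtain ⟨a, rfl⟩ := QuotientAddGroup.mk_surjective x
    exact ⟨QuotientAddGroup.mk a, rfl⟩
  have := finite_modP_of_injective (p := p) ι hinj
  have := finite_torP_of_injective (p := p) ι hinj
  let C : Rep (ZMod p) G := quotMod ι hι hp
  let rA : Rep (ZMod p) G := redMod p G A
  let rT : Rep (ZMod p) G := redMod p G T
  let tA : Rep (ZMod p) G := torMod p A (G := G)
  let tT : Rep (ZMod p) G := torMod p T (G := G)
  have : Finite C := hfA
  have : FiniteDimensional (ZMod p) C := Module.Finite.of_finite
  have : FiniteDimensional (ZMod p) rA := inferInstanceAs (Module.Finite (ZMod p) (ModP A p))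
  have : FiniteDimensional (ZMod p) rT := inferInstanceAs (Module.Finite (ZMod p) (ModP T p))
  have : FiniteDimensional (ZMod p) tA := inferInstanceAs (Module.Finite (ZMod p) (TorP p A))
  have : FiniteDimensional (ZMod p) tT := inferInstanceAs (Module.Finite (ZMod p) (TorP p T))
  let f1 : tT →ₗ[ZMod p] tA := torMap p ι
  have hf1 : ∀ (g : G) (x : tT), f1 (tT.ρ g x) = tA.ρ g (f1 x) := fun g x =>
    Subtype.ext (hι g _)
  let f2 : tA →ₗ[ZMod p] C := AddMonoidHom.toZModLinearMap p
    ((QuotientAddGroup.mk' ι.range).comp (AddSubgroup.subtype _))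
  have hf2 : ∀ (g : G) (x : tA), f2 (tA.ρ g x) = C.ρ g (f2 x) := fun g x => rfl
  let mulp : A →+ T := (AddMonoidHom.ofInjective hinj).symm.toAddMonoidHom.comp
    ((nsmulAddMonoidHom (α := A) p).codRestrict ι.range hp)
  have hmulp : ∀ a, ι (mulp a) = p • a := fun a =>
    AddMonoidHom.apply_ofInjective_symm hinj _
  let f3 : C →ₗ[ZMod p] rT := AddMonoidHom.toZModLinearMap p
    (QuotientAddGroup.lift _ ((QuotientAddGroup.mk' (pMultiples T p)).comp mulp) fun a ⟨t, ht⟩ =>
      (QuotientAddGroup.eq_zero_iff _).mpr ⟨t, hinj (by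
        rw [hmulp, ← ht]; exact map_nsmul ι p t)⟩)
  have hf3 : ∀ (g : G) (x : C), f3 (C.ρ g x) = rT.ρ g (f3 x) := fun g x => by
    induction (show A ⧸ ι.range from x) using QuotientAddGroup.induction_on with
    | H a => exact congrArg QuotientAddGroup.mk (hinj (by
        show ι (mulp (g • a)) = ι (g • mulp a)
        rw [hι, hmulp, hmulp, smul_comm]))
  let f4 : rT →ₗ[ZMod p] rA := redMap (p := p) ι
  have hf4 : ∀ (g : G) (x : rT), f4 (rT.ρ g x) = rA.ρ g (f4 x) := redMap_equiv ι hι
  let f5 : rA →ₗ[ZMod p] C := AddMonoidHom.toZModLinearMap p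
    (QuotientAddGroup.map _ _ (AddMonoidHom.id A) fun x (hx : x ∈ pMultiples A p) =>
      by obtain ⟨a, rfl⟩ := hx; exact hp a)
  have hf5 : ∀ (g : G) (x : rA), f5 (rA.ρ g x) = C.ρ g (f5 x) := fun g x => by
    induction (show ModP A p from x) using QuotientAddGroup.induction_on with
    | H a => rfl
  have x1 : ∀ v, f2 v = 0 ↔ ∃ u, f1 u = v := fun v => by
    constructor
    · intro hv
      obtain ⟨t, ht⟩ := (QuotientAddGroup.eq_zero_iff _).mp hv
      refine ⟨⟨t, hinj ?_⟩, Subtype.ext ht⟩
      show ι (p • t) = ι 0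
      rw [map_nsmul, ht, map_zero]
      exact v.2
    · rintro ⟨u, rfl⟩
      exact (QuotientAddGroup.eq_zero_iff _).mpr ⟨_, rfl⟩
  have x2 : ∀ v, f3 v = 0 ↔ ∃ u, f2 u = v := fun v => by
    obtain ⟨a, rfl⟩ := QuotientAddGroup.mk_surjective (show A ⧸ ι.range from v)
    constructor
    · intro hv
      obtain ⟨t, ht⟩ := (QuotientAddGroup.eq_zero_iff _).mp hv
      have h1 : p • a = p • ι t := by
        rw [← hmulp a, ← map_nsmul]; exact congrArg ι ht.symm
      refine ⟨⟨a - ι t, by show p • (a - ι t) = 0; rw [smul_sub, h1, sub_self]⟩, ?_⟩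
      exact QuotientAddGroup.eq.mpr ⟨t, show ι t = -(a - ι t) + a by abel⟩
    · rintro ⟨⟨u, hup⟩, hu⟩
      obtain ⟨t, ht⟩ := QuotientAddGroup.eq.mp hu
      refine (QuotientAddGroup.eq_zero_iff _).mpr ⟨t, hinj ?_⟩
      show ι (p • t) = ι (mulp a)
      rw [hmulp, map_nsmul, show ι t = -u + a from ht, smul_add, smul_neg,
        show p • u = 0 from hup, neg_zero, zero_add]
  have x3 : ∀ v, f4 v = 0 ↔ ∃ u, f3 u = v := fun v => by
    obtain ⟨t, rfl⟩ := QuotientAddGroup.mk_surjective (show ModP T p from v)
    constructor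
    · intro hv
      obtain ⟨a, ha⟩ := (QuotientAddGroup.eq_zero_iff _).mp hv
      exact ⟨QuotientAddGroup.mk a,
        congrArg QuotientAddGroup.mk (hinj ((hmulp a).trans ha))⟩
    · rintro ⟨u, hu⟩
      obtain ⟨a, rfl⟩ := QuotientAddGroup.mk_surjective (show A ⧸ ι.range from u)
      rw [← hu]
      exact (QuotientAddGroup.eq_zero_iff _).mpr ⟨a, (hmulp a).symm⟩
  have x4 : ∀ v, f5 v = 0 ↔ ∃ u, f4 u = v := fun v => by
    obtain ⟨a, rfl⟩ := QuotientAddGroup.mk_surjective (show ModP A p from v)
    constructor
    · intro hv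
      obtain ⟨t, ht⟩ := (QuotientAddGroup.eq_zero_iff _).mp hv
      exact ⟨QuotientAddGroup.mk t, congrArg QuotientAddGroup.mk ht⟩
    · rintro ⟨u, hu⟩
      obtain ⟨t, rfl⟩ := QuotientAddGroup.mk_surjective (show ModP T p from u)
      rw [← hu]
      exact (QuotientAddGroup.eq_zero_iff _).mpr ⟨t, rfl⟩
  have hinj1 : Function.Injective f1 := fun a b h => Subtype.ext (hinj (congrArg Subtype.val h))
  have hsurj5 : Function.Surjective f5 := fun v => by
    obtain ⟨a, rfl⟩ := QuotientAddGroup.mk_surjective (show A ⧸ ι.range from v)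
    exact ⟨QuotientAddGroup.mk a, rfl⟩
  have a1 := eq_rangeRep_of_injective f1 hf1 he hinj1
  have a2 := eq_kerRep_add_rangeRep f2 hf2 he
  have a3 := eq_kerRep_add_rangeRep f3 hf3 he
  have a4 := eq_kerRep_add_rangeRep f4 hf4 he
  have a5 := eq_kerRep_add_rangeRep f5 hf5 he
  have b1 := kerRep_of_exact f1 hf1 he f2 hf2 x1
  have b2 := kerRep_of_exact f2 hf2 he f3 hf3 x2
  have b3 := kerRep_of_exact f3 hf3 he f4 hf4 x3
  have b4 := kerRep_of_exact f4 hf4 he f5 hf5 x4
  have b5 := rangeRep_of_surjective f5 hf5 he hsurj5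
  show e rT - e tT = e rA - e tA
  omega

omit hι he in
theorem prime_to_p_bijective (hfin : Finite (A ⧸ ι.range))
    (htop : ∀ a : A, ∃ t b, ι t + p • b = a) :
    (∀ a : A, p • a ∈ ι.range → a ∈ ι.range) := by
  intro a ha
  let m : A ⧸ ι.range →+ A ⧸ ι.range := nsmulAddMonoidHom p
  have hsurj : Function.Surjective m := fun x => by
    obtain ⟨a, rfl⟩ := QuotientAddGroup.mk_surjective x
    obtain ⟨t, b, rfl⟩ := htop a
    refine ⟨QuotientAddGroup.mk b, ?_⟩
    show p • (QuotientAddGroup.mk b : A ⧸ ι.range) = _
    rw [QuotientAddGroup.mk_add, mk_range_eq_zero ι t, zero_add]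
    exact (map_nsmul (QuotientAddGroup.mk' ι.range) p b).symm
  have hbij := Finite.injective_iff_surjective.mpr hsurj
  refine (QuotientAddGroup.eq_zero_iff a).mp (hbij ?_)
  show p • (QuotientAddGroup.mk a : A ⧸ ι.range) = p • 0
  rw [smul_zero]
  exact ((map_nsmul (QuotientAddGroup.mk' ι.range) p a).symm).trans
    ((QuotientAddGroup.eq_zero_iff _).mpr ha)

/-- Invariance under passage to a subgroup of finite index. -/
theorem omega_eq_of_finiteIndex [Finite (ModP A p)] [Finite (TorP p A)]
    (hfin : ι.range.index ≠ 0) :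
    e (redMod p G T) - e (torMod p T (G := G))
      = e (redMod p G A) - e (torMod p A (G := G)) := by
  classical
  induction hn : ι.range.index using Nat.strong_induction_on generalizing A with
  | _ n ih =>
    have : ι.range.FiniteIndex := ⟨hfin⟩
    have hfA : Finite (A ⧸ ι.range) := AddSubgroup.finite_quotient_of_finiteIndex
    set U : AddSubgroup A := ι.range ⊔ pMultiples A p with hU
    have hUst : ∀ (g : G) {a : A}, a ∈ U → g • a ∈ U := fun g a ha => by
      obtain ⟨_, ⟨b, rfl⟩, c, hc, rfl⟩ := AddSubgroup.mem_sup.mp ha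
      rw [smul_add, ← hι]
      exact AddSubgroup.add_mem_sup ⟨_, rfl⟩ (smul_mem_pMultiples A g hc)
    by_cases hUtop : U = ⊤
    · have htop : ∀ a : A, ∃ t b, ι t + p • b = a := fun a => by
        obtain ⟨_, ⟨t, rfl⟩, _, ⟨b, rfl⟩, h⟩ :=
          AddSubgroup.mem_sup.mp (hUtop ▸ AddSubgroup.mem_top a : a ∈ U)
        exact ⟨t, b, h⟩
      have hbij := prime_to_p_bijective (p := p) ι hinj hfA htop
      have := finite_modP_of_injective (p := p) ι hinj
      have := finite_torP_of_injective (p := p) ι hinj
      have : FiniteDimensional (ZMod p) (redMod p G A) :=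
        inferInstanceAs (Module.Finite (ZMod p) (ModP A p))
      have : FiniteDimensional (ZMod p) (redMod p G T) :=
        inferInstanceAs (Module.Finite (ZMod p) (ModP T p))
      have : FiniteDimensional (ZMod p) (torMod p A (G := G)) :=
        inferInstanceAs (Module.Finite (ZMod p) (TorP p A))
      have : FiniteDimensional (ZMod p) (torMod p T (G := G)) :=
        inferInstanceAs (Module.Finite (ZMod p) (TorP p T))
      have h1 := he.eq_of_bijective (redMod p G T) (redMod p G A) (redMap (p := p) ι)
        (redMap_equiv ι hι) ⟨(injective_iff_map_eq_zero _).mpr fun x hx => by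
          obtain ⟨t, rfl⟩ := QuotientAddGroup.mk_surjective (show ModP T p from x)
          obtain ⟨a, ha⟩ := (QuotientAddGroup.eq_zero_iff _).mp hx
          obtain ⟨s, rfl⟩ := hbij a ⟨t, ha.symm⟩
          exact (QuotientAddGroup.eq_zero_iff _).mpr ⟨s,
            hinj (by rw [← ha]; exact map_nsmul ι p s)⟩,
        fun x => by
          obtain ⟨a, rfl⟩ := QuotientAddGroup.mk_surjective (show ModP A p from x)
          obtain ⟨t, b, rfl⟩ := htop a
          refine ⟨QuotientAddGroup.mk t, ?_⟩
          rw [QuotientAddGroup.mk_add, mk_nsmul_eq_zero,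
            add_zero]
          rfl⟩
      have h2 := he.eq_of_bijective (torMod p T (G := G)) (torMod p A (G := G)) (torMap p ι)
        (fun g x => Subtype.ext (hι g _))
        ⟨fun a b h => Subtype.ext (hinj (congrArg Subtype.val h)), fun x => by
          obtain ⟨t, ht⟩ := hbij (show TorP p A from x).1
            (by rw [show p • (show TorP p A from x).1 = 0 from
              (show TorP p A from x).2]; exact zero_mem _)
          refine ⟨⟨t, hinj ?_⟩, Subtype.ext ht⟩
          show ι (p • t) = ι 0
          rw [map_nsmul, ht, map_zero]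
          exact x.2⟩
      rw [h1, h2]
    · let : DistribMulAction G U :=
        { smul := fun g a => ⟨g • (a : A), hUst g a.2⟩
          one_smul := fun a => Subtype.ext (one_smul G (a : A))
          mul_smul := fun g h a => Subtype.ext (mul_smul g h (a : A))
          smul_zero := fun g => Subtype.ext (smul_zero g)
          smul_add := fun g a b => Subtype.ext (smul_add g (a : A) b) }
      let ι' : T →+ U := ι.codRestrict U fun b => AddSubgroup.mem_sup_left ⟨b, rfl⟩
      have hidx : ι'.range.index * U.index = ι.range.index := by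
        rw [← AddSubgroup.relIndex_mul_index (show ι.range ≤ U from le_sup_left)]
        congr 1
        rw [AddSubgroup.relIndex]
        congr 1
        ext ⟨x, hx⟩
        exact ⟨fun ⟨b, hb⟩ => ⟨b, congrArg Subtype.val hb⟩, fun ⟨b, hb⟩ => ⟨b, Subtype.ext hb⟩⟩
      have hU1 : 1 < U.index := by
        have h1 : U.index ≠ 1 := fun h => hUtop (AddSubgroup.index_eq_one.mp h)
        have h2 : U.index ≠ 0 := fun h => hfin (by rw [← hidx, h, Nat.mul_zero])
        omega
      have hn0 : ι'.range.index ≠ 0 := fun h => hfin (by rw [← hidx, h, Nat.zero_mul])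
      have hUp : ∀ a : A, p • a ∈ U.subtype.range := fun a => by
        rw [AddSubgroup.range_subtype]
        exact AddSubgroup.mem_sup_right ⟨a, rfl⟩
      have : Finite (A ⧸ U.subtype.range) := by
        rw [AddSubgroup.range_subtype]
        have : U.FiniteIndex := ⟨fun h => hfin (by rw [← hidx, h, Nat.mul_zero])⟩
        exact AddSubgroup.finite_quotient_of_finiteIndex
      have := finite_modP_of_injective (p := p) U.subtype Subtype.val_injective
      have := finite_torP_of_injective (p := p) U.subtype Subtype.val_injective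
      rw [ih ι'.range.index (by rw [← hn, ← hidx]; exact lt_mul_right (Nat.pos_of_ne_zero hn0) hU1)
        ι' (fun g b => Subtype.ext (hι g b))
        (fun a b hab => hinj (congrArg Subtype.val hab)) hn0 rfl]
      exact omega_step U.subtype (fun _ _ => rfl) Subtype.val_injective he hUp

end Step

end FLTAgent.GWEuler.LocalEuler
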