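import Fermat.Agent.GWEuler.LocalEuler.Reduction
import Fermat.Agent.GWEuler.LocalEuler.Projective
import Fermat.Agent.LocalDuality.NormIndex

/-!
# The class of `Kˣ/p` for a Galois extension `K` of `ℚ_q`

`redMod_lUnits`: an additive function `e` has `e(Kˣ/p) = e(μ_p(K)) + e(ℤ/p)`, plus the value at
the regular representation when `p = q`, as a small ball around `1` is a lattice with a normal
basis.
-/

set_option autoImplicit false
set_option linter.unusedSectionVars false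

noncomputable section

open CategoryTheory Module groupCohomology ExtCitation

namespace FLTAgent.GWEuler.LocalEuler

open FLTAgent.LocalDuality

variable (q : ℕ) [Fact q.Prime] (K : Type) [Field K] [Algebra ℚ_[q] K]

/-- The multiplicative group, written additively, with its Galois action. -/
def LUnits : Type := Additive Kˣ

instance : AddCommGroup (LUnits K) := inferInstanceAs (AddCommGroup (Additive Kˣ))

variable {K}

/-- An element of `Kˣ` in `LUnits K`. -/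
def toLU (u : Kˣ) : LUnits K := Additive.ofMul u

/-- The underlying element of `Kˣ`. -/
def ofLU (u : LUnits K) : Kˣ := Additive.toMul (α := Kˣ) u

variable {q}

instance : DistribMulAction (K ≃ₐ[ℚ_[q]] K) (LUnits K) where
  smul g u := toLU (Units.map (g : K →* K) (ofLU u))
  one_smul _ := congrArg toLU (Units.ext rfl)
  mul_smul _ _ _ := congrArg toLU (Units.ext rfl)
  smul_zero _ := congrArg toLU (map_one _)
  smul_add _ u v := congrArg toLU (map_mul _ (ofLU u) (ofLU v))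

theorem coe_ofLU_smul (g : K ≃ₐ[ℚ_[q]] K) (u : LUnits K) :
    ((ofLU (g • u) : Kˣ) : K) = g (ofLU u : K) := rfl

variable {p : ℕ} [Fact p.Prime]

theorem finite_torP_lUnits : Finite (TorP p (LUnits K)) := by
  have : NeZero p := ⟨(Fact.out : p.Prime).ne_zero⟩
  refine Finite.of_injective (β := rootsOfUnity p K)
    (fun x => ⟨ofLU x.1, (mem_rootsOfUnity _ _).mpr (congrArg ofLU x.2)⟩)
      fun x y h => Subtype.ext ?_
  exact congrArg (fun u : rootsOfUnity p K => toLU u.1) h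

theorem finite_modP_lUnits [FiniteDimensional ℚ_[q] K] : Finite (ModP (LUnits K) p) := by
  have : NeZero p := ⟨(Fact.out : p.Prime).ne_zero⟩
  have h := local_index_pow_range q K p
  have hne : (powMonoidHom p : Kˣ →* Kˣ).range.index ≠ 0 := by
    have e : (powMonoidHom p : Kˣ →* Kˣ).ker = rootsOfUnity p K := by
      ext x; simp [MonoidHom.mem_ker, mem_rootsOfUnity]
    rw [h, e]
    refine mul_ne_zero (mul_ne_zero Nat.card_pos.ne' (NeZero.ne p)) ?_
    split_ifs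
    · exact pow_ne_zero _ (NeZero.ne p)
    · exact one_ne_zero
  have : (powMonoidHom p : Kˣ →* Kˣ).range.FiniteIndex := ⟨hne⟩
  have : Finite (Kˣ ⧸ (powMonoidHom p : Kˣ →* Kˣ).range) := Subgroup.finite_quotient_of_finiteIndex
  refine Finite.of_surjective
    (fun x : Kˣ ⧸ (powMonoidHom p : Kˣ →* Kˣ).range => Quotient.liftOn' x
      (fun u => (QuotientAddGroup.mk (toLU u) : ModP (LUnits K) p)) fun a b hab => ?_) fun x => ?_
  · obtain ⟨c, hc⟩ := QuotientGroup.leftRel_apply.mp hab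
    exact QuotientAddGroup.eq.mpr (show -toLU a + toLU b ∈ pMultiples (LUnits K) p from
      ⟨toLU c, congrArg toLU hc⟩)
  · obtain ⟨u, rfl⟩ := QuotientAddGroup.mk_surjective x
    exact ⟨QuotientGroup.mk (ofLU u), rfl⟩

/-- The `p`-torsion of `Kˣ` is the cyclotomic character. -/
theorem torMod_eq_ofChar {e : Rep (ZMod p) (K ≃ₐ[ℚ_[q]] K) → ℤ} (he : IsAdditive e)
    {z : K} (hz : IsPrimitiveRoot z p) (ψ : (K ≃ₐ[ℚ_[q]] K) →* (ZMod p)ˣ)
    (hψ : ∀ g : K ≃ₐ[ℚ_[q]] K, g z = z ^ ((ψ g : (ZMod p)ˣ) : ZMod p).val) :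
    e (torMod p (LUnits K) (G := K ≃ₐ[ℚ_[q]] K)) = e (ofChar ψ) := by
  have : NeZero p := ⟨(Fact.out : p.Prime).ne_zero⟩
  have := finite_torP_lUnits (K := K) (p := p)
  have : FiniteDimensional (ZMod p) (torMod p (LUnits K) (G := K ≃ₐ[ℚ_[q]] K)) :=
    (Module.Finite.of_finite : Module.Finite (ZMod p) (TorP p (LUnits K)))
  have : FiniteDimensional (ZMod p) (ofChar ψ) :=
    inferInstanceAs (FiniteDimensional (ZMod p) (ZMod p))
  obtain ⟨u, rfl⟩ := hz.isUnit (NeZero.ne p)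
  have hu : IsPrimitiveRoot u p := IsPrimitiveRoot.coe_units_iff.mp hz
  let f₀ : ℤ →+ TorP p (LUnits K) := zmultiplesHom _ ⟨toLU u, congrArg toLU hu.pow_eq_one⟩
  have hf₀ : f₀ (p : ℤ) = 0 := Subtype.ext (by
    show (((p : ℕ) : ℤ) • toLU u : LUnits K) = 0
    rw [natCast_zsmul]
    exact congrArg toLU hu.pow_eq_one)
  let f : ofChar ψ →ₗ[ZMod p] torMod p (LUnits K) (G := K ≃ₐ[ℚ_[q]] K) :=
    AddMonoidHom.toZModLinearMap p (ZMod.lift p ⟨f₀, hf₀⟩)
  have hfv : ∀ c : ZMod p,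
      (ofLU (show TorP p (LUnits K) from f c).1 : Kˣ) = u ^ c.val := fun c => by
    have h1 : ZMod.lift p ⟨f₀, hf₀⟩ ((c.val : ℤ) : ZMod p) = f₀ (c.val : ℤ) := ZMod.lift_coe _ _ _
    rw [Int.cast_natCast, ZMod.natCast_zmod_val] at h1
    show ofLU ((ZMod.lift p ⟨f₀, hf₀⟩ c : TorP p (LUnits K)) : LUnits K) = _
    rw [h1]
    show ofLU (((c.val : ℤ) • toLU u : LUnits K)) = _
    rw [natCast_zsmul]
    rfl
  refine (he.eq_of_bijective (ofChar ψ) _ f (fun g c => ?_) ⟨?_, ?_⟩).symm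
  · refine Subtype.ext (congrArg toLU (?_ : (ofLU (show TorP p (LUnits K) from f _).1 : Kˣ)
      = Units.map (g : K →* K) (ofLU (show TorP p (LUnits K) from f c).1)))
    refine (hfv _).trans ?_
    rw [hfv, map_pow]
    have e1 : Units.map (g : K →* K) u = u ^ ((ψ g : (ZMod p)ˣ) : ZMod p).val := Units.ext (by
      rw [Units.val_pow_eq_pow_val]; exact hψ g)
    rw [e1, ← pow_mul, pow_eq_pow_mod (_ * _) hu.pow_eq_one, ← ZMod.val_mul]
    rfl
  · intro c d hcd
    have h := (hfv c).symm.trans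
      ((congrArg (fun t => ofLU (show TorP p (LUnits K) from t).1) hcd).trans
      (hfv d))
    exact ZMod.val_injective p (hu.pow_inj (ZMod.val_lt c) (ZMod.val_lt d) h)
  · intro x
    have hxp : ofLU (show TorP p (LUnits K) from x).1 ^ p = 1 :=
      congrArg ofLU (show TorP p (LUnits K) from x).2
    obtain ⟨i, hi, hx⟩ := hz.eq_pow_of_pow_eq_one
      (show ((ofLU (show TorP p (LUnits K) from x).1 : Kˣ) : K) ^ p = 1 by
        rw [← Units.val_pow_eq_pow_val, hxp, Units.val_one])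
    refine ⟨(i : ZMod p), Subtype.ext (congrArg toLU (?_ : (ofLU (show TorP p (LUnits K) from f _).1
      : Kˣ) = ofLU (show TorP p (LUnits K) from x).1))⟩
    refine (hfv _).trans ?_
    rw [ZMod.val_natCast_of_lt hi]
    exact Units.ext ((Units.val_pow_eq_pow_val _ _).trans hx)

section Ball

variable {K : Type} [NormedField K] [NormedAlgebra ℚ_[q] K] [IsUltrametricDist K]
  [FiniteDimensional ℚ_[q] K] [IsGalois ℚ_[q] K]

theorem equivFun_nBasis_map (σ : K ≃ₐ[ℚ_[q]] K) (x : K) (h : K ≃ₐ[ℚ_[q]] K) :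
    (nBasis K ℚ_[q]).equivFun (σ x) h = (nBasis K ℚ_[q]).equivFun x (σ⁻¹ * h) := by
  have e1 : σ x = ∑ τ, (nBasis K ℚ_[q]).equivFun x (σ⁻¹ * τ) • nBasis K ℚ_[q] τ := by
    conv_lhs => rw [← (nBasis K ℚ_[q]).sum_equivFun x, map_sum_smul_nBasis]
    exact Fintype.sum_equiv (Equiv.mulLeft σ) _ _ fun τ => by simp
  rw [e1, ← (nBasis K ℚ_[q]).equivFun_symm_apply, LinearEquiv.apply_symm_apply]

variable {ρ : ℝ} (h : IsSmall (nBasis K ℚ_[q]) ρ)

/-- A small ball, written additively. -/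
def BallLU : AddSubgroup (LUnits K) := Subgroup.toAddSubgroup (ball (nBasis K ℚ_[q]) h)

theorem mem_ballLU {u : LUnits K} :
    u ∈ BallLU h ↔ coordNorm (nBasis K ℚ_[q]) ((ofLU u : K) - 1) ≤ ρ := Iff.rfl

theorem smul_mem_ballLU (g : K ≃ₐ[ℚ_[q]] K) {u : LUnits K} (hu : u ∈ BallLU h) :
    g • u ∈ BallLU h := by
  rw [mem_ballLU] at hu ⊢
  rw [coe_ofLU_smul, ← map_one g, ← map_sub]
  exact (coordNorm_map_le g _).trans hu

instance : DistribMulAction (K ≃ₐ[ℚ_[q]] K) (BallLU h) where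
  smul g u := ⟨g • (u : LUnits K), smul_mem_ballLU h g u.2⟩
  one_smul u := Subtype.ext (one_smul _ (u : LUnits K))
  mul_smul g g' u := Subtype.ext (mul_smul g g' (u : LUnits K))
  smul_zero g := Subtype.ext (smul_zero g)
  smul_add g u v := Subtype.ext (smul_add g (u : LUnits K) v)

/-- `ℤ × V`, for the subgroup generated by a uniformiser of `ℚ_q` and the ball. -/
abbrev ZBall : Type := ℤ × BallLU h

instance : DistribMulAction (K ≃ₐ[ℚ_[q]] K) (ZBall h) where
  smul g x := (x.1, g • x.2)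
  one_smul x := Prod.ext rfl (one_smul _ x.2)
  mul_smul g g' x := Prod.ext rfl (mul_smul g g' x.2)
  smul_zero g := Prod.ext rfl (smul_zero g)
  smul_add g x y := Prod.ext rfl (smul_add g x.2 y.2)

variable (q K) in
/-- The uniformiser of `ℚ_q` in `Kˣ`. -/
def piUnit : Kˣ := Units.map (algebraMap ℚ_[q] K : ℚ_[q] →* K)
  (Units.mk0 (q : ℚ_[q]) (Nat.cast_ne_zero.mpr (Fact.out : q.Prime).ne_zero))

theorem norm_piUnit_lt : ‖(piUnit q K : K)‖ < 1 := by
  show ‖algebraMap ℚ_[q] K q‖ < 1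
  rw [norm_algebraMap']
  exact Padic.norm_p_lt_one

theorem eq_zero_of_zpow_piUnit_mem {k : ℤ} (hk : piUnit q K ^ k ∈ ball (nBasis K ℚ_[q]) h) :
    k = 0 := by
  have := norm_eq_one_of_mem_ball hk
  rw [Units.val_zpow_eq_zpow_val, norm_zpow] at this
  exact (zpow_eq_one_iff_right₀ (norm_nonneg _) norm_piUnit_lt.ne).mp this

/-- The inclusion of `ℤ × V`. -/
def zballIncl : ZBall h →+ LUnits K :=
  AddMonoidHom.coprod (zmultiplesHom _ (toLU (piUnit q K))) (BallLU h).subtype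

theorem zballIncl_smul (g : K ≃ₐ[ℚ_[q]] K) (x : ZBall h) :
    zballIncl h (g • x) = g • zballIncl h x := by
  show x.1 • toLU (piUnit q K) + g • (x.2 : LUnits K)
    = g • (x.1 • toLU (piUnit q K) + (x.2 : LUnits K))
  rw [smul_add]
  congr 1
  rw [smul_comm]
  congr 1
  exact congrArg toLU (Units.ext (g.commutes _).symm)

theorem zballIncl_injective : Function.Injective (zballIncl h) := by
  rw [injective_iff_map_eq_zero]
  rintro ⟨k, v⟩ hv
  change k • toLU (piUnit q K) + (v : LUnits K) = 0 at hv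
  have h1 : k • toLU (piUnit q K) ∈ BallLU h := by
    rw [eq_neg_of_add_eq_zero_left hv]
    exact neg_mem v.2
  obtain rfl : k = 0 := eq_zero_of_zpow_piUnit_mem h h1
  rw [zero_smul, zero_add] at hv
  exact Prod.ext rfl (Subtype.ext hv)

theorem index_zballIncl : (zballIncl h).range.index ≠ 0 := by
  have : ProperSpace K := FiniteDimensional.proper ℚ_[q] K
  obtain ⟨δ, hδ, hV⟩ := exists_nbhd_ball h
  have h0 := index_zpowers_sup_ne_zero (norm_piUnit_lt (q := q) (K := K)) hδ hV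
  have e : (zballIncl h).range
      = Subgroup.toAddSubgroup (Subgroup.zpowers (piUnit q K) ⊔ ball (nBasis K ℚ_[q]) h) := by
    refine le_antisymm ?_ ?_
    · rintro _ ⟨⟨k, v⟩, rfl⟩
      exact Subgroup.mul_mem_sup (S := Subgroup.zpowers (piUnit q K))
        (T := ball (nBasis K ℚ_[q]) h) ⟨k, rfl⟩ v.2
    · intro x hx
      obtain ⟨_, ⟨k, rfl⟩, v, hv, hkv⟩ := Subgroup.mem_sup.mp hx
      exact ⟨(k, ⟨toLU v, hv⟩), congrArg toLU hkv⟩
  rw [e]
  exact fun hz => h0 (Subgroup.index_toAddSubgroup.symm.trans hz)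

variable {e : Rep (ZMod p) (K ≃ₐ[ℚ_[q]] K) → ℤ} (he : IsAdditive e)
include he

variable {ρ' : ℝ} (h' : IsSmall (nBasis K ℚ_[q]) ρ') (hρ' : ρ' = ρ * ‖(p : ℚ_[q])‖)
  (hC : mulConst (nBasis K ℚ_[q]) * ρ ≤ ‖(p : ℚ_[q])‖ / 2)
include hρ' hC

theorem nsmul_ballLU_eq_zero {v : BallLU h} (hv : p • v = 0) : v = 0 := by
  refine Subtype.ext (congrArg toLU ?_ : (v : LUnits K) = toLU 1)
  have hm : ofLU (v : LUnits K) ∈ ball (nBasis K ℚ_[q]) h ⊓ (powMonoidHom p).ker :=
    ⟨v.2, congrArg (fun x : BallLU h => ofLU (x : LUnits K)) hv⟩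
  rw [ball_inf_ker_pow p h hρ' hC, Subgroup.mem_bot] at hm
  exact hm

include h' in
theorem mem_pMultiples_ballLU (v : BallLU h) :
    v ∈ pMultiples (BallLU h) p
      ↔ coordNorm (nBasis K ℚ_[q]) ((ofLU (v : LUnits K) : K) - 1) ≤ ρ' := by
  have hmap := ball_map_pow p h h' hρ' hC
  constructor
  · rintro ⟨w, rfl⟩
    exact hmap.le ⟨ofLU (w : LUnits K), w.2, rfl⟩
  · intro hv
    obtain ⟨w, hw, hwv⟩ := hmap.ge (show ofLU (v : LUnits K) ∈ ball _ h' from hv)
    exact ⟨⟨toLU w, hw⟩, Subtype.ext (congrArg toLU hwv)⟩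

include h' in
/-- Off `p` the reduction of the ball vanishes. -/
theorem subsingleton_modP_ballLU (hpq : p ≠ q) : Subsingleton (ModP (BallLU h) p) := by
  refine subsingleton_of_forall_eq 0 fun x => ?_
  obtain ⟨v, rfl⟩ := QuotientAddGroup.mk_surjective x
  refine (QuotientAddGroup.eq_zero_iff v).mpr ((mem_pMultiples_ballLU h he h' hρ' hC v).mpr ?_)
  have h1 : ‖(p : ℚ_[q])‖ = 1 := by
    rw [Padic.norm_natCast_eq_one_iff]
    exact (Nat.coprime_primes (Fact.out : q.Prime) (Fact.out : p.Prime)).mpr (Ne.symm hpq)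
  rw [hρ', h1, mul_one]
  exact v.2

end Ball

section Regular

variable {K : Type} [NormedField K] [NormedAlgebra ℚ_[q] K] [IsUltrametricDist K]
  [FiniteDimensional ℚ_[q] K] [IsGalois ℚ_[q] K]
  {e : Rep (ZMod q) (K ≃ₐ[ℚ_[q]] K) → ℤ} (he : IsAdditive e)
  {c : ℚ_[q]} (hc : c ≠ 0) (h : IsSmall (nBasis K ℚ_[q]) ‖c‖) {ρ' : ℝ}
  (h' : IsSmall (nBasis K ℚ_[q]) ρ') (hρ' : ρ' = ‖c‖ * ‖(q : ℚ_[q])‖)
  (hC : mulConst (nBasis K ℚ_[q]) * ‖c‖ ≤ ‖(q : ℚ_[q])‖ / 2)
include he hc h' hρ' hC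

/-- At `q = p` the reduction of the ball is the regular representation. -/
theorem redMod_ballLU_regular :
    e (redMod q (K ≃ₐ[ℚ_[q]] K) (BallLU h)) = e (funRep q (K ≃ₐ[ℚ_[q]] K)) := by
  classical
  have : NeZero q := ⟨(Fact.out : q.Prime).ne_zero⟩
  set b := nBasis K ℚ_[q] with hb
  obtain ⟨co, ψ, hco, hψco, hsurj, hψ⟩ :=
    exists_ball_reduction hc h h' hρ' (hC.trans (half_le_self (norm_nonneg _)))
  let φ : BallLU h →+ ((K ≃ₐ[ℚ_[q]] K) → ZMod q) := AddMonoidHom.mk'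
    (fun v => (ψ ⟨ofLU (v : LUnits K), v.2⟩).toAdd) fun v w =>
      congrArg Multiplicative.toAdd
        (map_mul ψ ⟨ofLU (v : LUnits K), v.2⟩ ⟨ofLU (w : LUnits K), w.2⟩)
  have hφ0 : ∀ v : BallLU h, φ v = 0 ↔ v ∈ pMultiples (BallLU h) q := by
    intro v
    rw [mem_pMultiples_ballLU (p := q) h he h' hρ' hC v]
    exact Multiplicative.toAdd.eq_symm_apply.symm.trans (hψ ⟨ofLU (v : LUnits K), v.2⟩)
  let f : redMod q (K ≃ₐ[ℚ_[q]] K) (BallLU h) →ₗ[ZMod q] funRep q (K ≃ₐ[ℚ_[q]] K) :=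
    AddMonoidHom.toZModLinearMap q (QuotientAddGroup.lift _ φ fun v hv => (hφ0 v).mpr hv :
      ModP (BallLU h) q →+ ((K ≃ₐ[ℚ_[q]] K) → ZMod q))
  have hfbij : Function.Bijective f := by
    refine ⟨(injective_iff_map_eq_zero f).mpr fun x hx => ?_, fun z => ?_⟩
    · obtain ⟨v, rfl⟩ := QuotientAddGroup.mk_surjective (show ModP (BallLU h) q from x)
      exact (QuotientAddGroup.eq_zero_iff v).mpr ((hφ0 v).mp hx)
    · obtain ⟨w, hw⟩ :=
        hsurj (Multiplicative.ofAdd (show (K ≃ₐ[ℚ_[q]] K) → ZMod q from z))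
      exact ⟨QuotientAddGroup.mk ⟨toLU (w : Kˣ), w.2⟩, congrArg Multiplicative.toAdd hw⟩
  have : Finite (funRep q (K ≃ₐ[ℚ_[q]] K)) :=
    inferInstanceAs (Finite ((K ≃ₐ[ℚ_[q]] K) → ZMod q))
  have : Finite (redMod q (K ≃ₐ[ℚ_[q]] K) (BallLU h)) := Finite.of_injective f hfbij.1
  have : FiniteDimensional (ZMod q) (funRep q (K ≃ₐ[ℚ_[q]] K)) := Module.Finite.of_finite
  have : FiniteDimensional (ZMod q) (redMod q (K ≃ₐ[ℚ_[q]] K) (BallLU h)) :=
    Module.Finite.of_finite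
  refine he.eq_of_bijective _ _ f (fun g x => ?_) hfbij
  obtain ⟨v, rfl⟩ := QuotientAddGroup.mk_surjective (show ModP (BallLU h) q from x)
  funext i
  show (ψ _).toAdd i = (ψ ⟨ofLU (v : LUnits K), v.2⟩).toAdd (g⁻¹ * i)
  rw [hψco, hψco]
  congr 1
  apply Subtype.ext
  rw [hco, hco]
  show c⁻¹ * b.equivFun (g (ofLU (v : LUnits K) : K) - 1) i
    = c⁻¹ * b.equivFun ((ofLU (v : LUnits K) : K) - 1) (g⁻¹ * i)
  rw [show g (ofLU (v : LUnits K) : K) - 1 = g ((ofLU (v : LUnits K) : K) - 1) by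
    rw [map_sub, map_one], equivFun_nBasis_map]

end Regular

section Assembly

variable {K : Type} [NormedField K] [NormedAlgebra ℚ_[q] K] [IsUltrametricDist K]
  [FiniteDimensional ℚ_[q] K] [IsGalois ℚ_[q] K]
  {e : Rep (ZMod p) (K ≃ₐ[ℚ_[q]] K) → ℤ}

theorem redMod_lUnits_normed (he : IsAdditive e) :
    e (redMod p (K ≃ₐ[ℚ_[q]] K) (LUnits K))
      = e (torMod p (LUnits K) (G := K ≃ₐ[ℚ_[q]] K))
        + e (Rep.trivial (ZMod p) (K ≃ₐ[ℚ_[q]] K) (ZMod p))
        + if p = q then e (funRep p (K ≃ₐ[ℚ_[q]] K)) else 0 := by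
  classical
  have : NeZero p := ⟨(Fact.out : p.Prime).ne_zero⟩
  set b := nBasis K ℚ_[q]
  have hpp : 0 < ‖(p : ℚ_[q])‖ :=
    norm_pos_iff.mpr (Nat.cast_ne_zero.mpr (Fact.out : p.Prime).ne_zero)
  have hp1 : ‖(p : ℚ_[q])‖ ≤ 1 := by exact_mod_cast Padic.norm_int_le_one (p : ℤ)
  obtain ⟨ρ₀, hρ₀, hρ⟩ := exists_isSmall b (half_pos hpp)
  obtain ⟨c, hc0, hcn⟩ := exists_scalar_radius (q := q) hρ₀
  obtain ⟨h, hC⟩ := hρ ‖c‖ (norm_pos_iff.mpr hc0) hcn
  obtain ⟨h', -⟩ := hρ (‖c‖ * ‖(p : ℚ_[q])‖) (by positivity)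
    ((mul_le_of_le_one_right (norm_nonneg _) hp1).trans hcn)
  have := finite_modP_lUnits (q := q) (K := K) (p := p)
  have := finite_torP_lUnits (K := K) (p := p)
  have key := omega_eq_of_finiteIndex (p := p) (zballIncl h) (zballIncl_smul h)
    (zballIncl_injective h) he (index_zballIncl h)
  have : Finite ((LUnits K) ⧸ (zballIncl h).range) := by
    have : (zballIncl h).range.FiniteIndex := ⟨index_zballIncl h⟩
    exact AddSubgroup.finite_quotient_of_finiteIndex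
  have := finite_modP_of_injective (p := p) (zballIncl h) (zballIncl_injective h)
  have h0 : e (torMod p (ZBall h) (G := K ≃ₐ[ℚ_[q]] K)) = 0 := by
    have : Subsingleton (torMod p (ZBall h) (G := K ≃ₐ[ℚ_[q]] K)) :=
      subsingleton_of_forall_eq 0 fun x => Subtype.ext (by
        obtain ⟨⟨k, v⟩, hkv⟩ := (show TorP p (ZBall h) from x)
        change p • (k, v) = 0 at hkv
        have h1 : p • k = 0 := congrArg Prod.fst hkv
        have h2 : p • v = 0 := congrArg Prod.snd hkv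
        rw [nsmul_eq_mul, mul_eq_zero] at h1
        exact Prod.ext (h1.resolve_left (Nat.cast_ne_zero.mpr (Fact.out : p.Prime).ne_zero))
          (nsmul_ballLU_eq_zero h he rfl hC h2))
    exact he.eq_zero_of_subsingleton _
  let rZ : Rep (ZMod p) (K ≃ₐ[ℚ_[q]] K) := redMod p _ (ZBall h)
  let rB : Rep (ZMod p) (K ≃ₐ[ℚ_[q]] K) := redMod p _ (BallLU h)
  let F : Rep (ZMod p) (K ≃ₐ[ℚ_[q]] K) := Rep.trivial (ZMod p) _ (ZMod p)
  have : Finite rZ := inferInstanceAs (Finite (ModP (ZBall h) p))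
  let i₂ : rB →ₗ[ZMod p] rZ := redMap (p := p) (AddMonoidHom.inr ℤ (BallLU h))
  let pr : rZ →ₗ[ZMod p] F := AddMonoidHom.toZModLinearMap p
    (QuotientAddGroup.lift (pMultiples (ZBall h) p)
      ((Int.castAddHom (ZMod p)).comp (AddMonoidHom.fst ℤ (BallLU h))) fun x hx => by
        obtain ⟨y, rfl⟩ := hx
        show ((p • y).1 : ZMod p) = 0
        simp : ModP (ZBall h) p →+ ZMod p)
  have hi₂ : Function.Injective i₂ := by
    rw [injective_iff_map_eq_zero]
    intro x hx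
    obtain ⟨v, rfl⟩ := QuotientAddGroup.mk_surjective (show ModP (BallLU h) p from x)
    obtain ⟨⟨k, w⟩, hw⟩ := (QuotientAddGroup.eq_zero_iff _).mp hx
    exact (QuotientAddGroup.eq_zero_iff v).mpr ⟨w, congrArg Prod.snd hw⟩
  have : Finite rB := Finite.of_injective i₂ hi₂
  have : FiniteDimensional (ZMod p) rZ := Module.Finite.of_finite
  have : FiniteDimensional (ZMod p) rB := Module.Finite.of_finite
  have : FiniteDimensional (ZMod p) F := inferInstanceAs (FiniteDimensional (ZMod p) (ZMod p))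
  have hsum : e rZ = e rB + e F := by
    refine he rB rZ F i₂ pr (fun g x => ?_) (fun g x => ?_) hi₂ (fun z => ?_) fun x => ?_
    · obtain ⟨v, rfl⟩ := QuotientAddGroup.mk_surjective (show ModP (BallLU h) p from x)
      rfl
    · obtain ⟨v, rfl⟩ := QuotientAddGroup.mk_surjective (show ModP (ZBall h) p from x)
      rfl
    · exact ⟨QuotientAddGroup.mk (((show ZMod p from z).val : ℤ), 0),
        (Int.cast_natCast _).trans (ZMod.natCast_zmod_val _)⟩
    · obtain ⟨⟨k, v⟩, rfl⟩ := QuotientAddGroup.mk_surjective (show ModP (ZBall h) p from x)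
      constructor
      · intro hk
        obtain ⟨m, rfl⟩ := (ZMod.intCast_zmod_eq_zero_iff_dvd k p).mp hk
        refine ⟨QuotientAddGroup.mk v, ?_⟩
        refine QuotientAddGroup.eq.mpr ?_
        show -((0 : ℤ), v) + ((p : ℤ) * m, v) ∈ pMultiples (ZBall h) p
        exact ⟨(m, 0), Prod.ext (by show p • m = _; simp) (by show p • (0 : BallLU h) = _; simp)⟩
      · rintro ⟨u, hu⟩
        obtain ⟨w, rfl⟩ := QuotientAddGroup.mk_surjective (show ModP (BallLU h) p from u)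
        rw [← hu]
        exact Int.cast_zero
  have hB : e rB = if p = q then e (funRep p (K ≃ₐ[ℚ_[q]] K)) else 0 := by
    split_ifs with hpq
    · subst hpq
      exact redMod_ballLU_regular he hc0 h h' rfl hC
    · have : Subsingleton rB := subsingleton_modP_ballLU (p := p) h he h' rfl hC hpq
      exact he.eq_zero_of_subsingleton _
  rw [h0] at key
  show e (redMod p (K ≃ₐ[ℚ_[q]] K) (LUnits K)) = _
  rw [← hB]
  linarith [hsum, key]

end Assembly

/-- `e(Kˣ/p) = e(μ_p(K)) + e(ℤ/p)`, plus the regular value when `p = q`. -/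
theorem redMod_lUnits {K : Type} [Field K] [Algebra ℚ_[q] K] [FiniteDimensional ℚ_[q] K]
    [IsGalois ℚ_[q] K] {e : Rep (ZMod p) (K ≃ₐ[ℚ_[q]] K) → ℤ} (he : IsAdditive e)
    {z : K} (hz : IsPrimitiveRoot z p) (ψ : (K ≃ₐ[ℚ_[q]] K) →* (ZMod p)ˣ)
    (hψ : ∀ g : K ≃ₐ[ℚ_[q]] K, g z = z ^ ((ψ g : (ZMod p)ˣ) : ZMod p).val) :
    e (redMod p (K ≃ₐ[ℚ_[q]] K) (LUnits K))
      = e (ofChar ψ) + e (Rep.trivial (ZMod p) (K ≃ₐ[ℚ_[q]] K) (ZMod p))
        + if p = q then e (funRep p (K ≃ₐ[ℚ_[q]] K)) else 0 := by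
  rw [← torMod_eq_ofChar he hz ψ hψ]
  let : NormedField K := spectralNorm.normedField ℚ_[q] K
  let : NormedAlgebra ℚ_[q] K := spectralNorm.normedAlgebra ℚ_[q] K
  have : IsUltrametricDist K := IsUltrametricDist.of_normedAlgebra ℚ_[q]
  exact redMod_lUnits_normed he

end FLTAgent.GWEuler.LocalEuler
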